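import Fermat.Agent.SmallTrdeg.Forms
import Fermat.Agent.BrownawellWaldschmidt.ZeroEstimate
import Fermat.Agent.GelfondCubic.Auxiliary
import Fermat.Agent.GelfondCubic.ZeroEstimate

/-!
# The auxiliary function

Siegel's lemma gives zeros of order `T` at the points with coefficients below `S`; the zero
estimate gives a nonzero derivative of order below `T'` at a point with coefficients below `S'`.
-/

set_option autoImplicit false

noncomputable section

open Finset Polynomial Matrix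

namespace FA.SmallTrdeg

open FA.GelfondCubic (Acts Small len exists_small_solution aeval_ne_zero norm_le_of_zeros)
open FA.BrownawellWaldschmidt (derivPoly expPolyM iteratedDeriv_expPolyM zero_estimate_poly
  norm_expPolyM_le differentiable_expPolyM)

variable {l m : ℕ}

/-- The functions. -/
abbrev FunIndex (l L A : ℕ) : Type := (Fin l → Fin L) × Fin A

/-- The derivative of the auxiliary function at a point. -/
def valueSum {L A S : ℕ} (θ : ℂ) (x : Fin l → ℂ) (y : Fin m → ℂ) (p : FunIndex l L A → ℤ[X])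
    (t : ℕ) (σ : Fin m → Fin S) : ℂ :=
  ∑ a, aeval θ (p a) *
    (derivPoly t a.2 (lin y σ) (lin x a.1) * Complex.exp (lin x a.1 * lin y σ))

theorem iteratedDeriv_aux {L A S : ℕ} (θ : ℂ) (x : Fin l → ℂ) (y : Fin m → ℂ)
    (p : FunIndex l L A → ℤ[X]) (t : ℕ) (σ : Fin m → Fin S) :
    iteratedDeriv t (expPolyM (fun a => aeval θ (p a)) fun μ : Fin l → Fin L => lin x μ)
      (lin y σ) = valueSum θ x y p t σ := by
  rw [iteratedDeriv_expPolyM]
  rfl

theorem derivPoly_congr {t a : ℕ} {z z' v v' : ℂ} (ha : a = 0 ∨ z = z') (ht : t = 0 ∨ v = v') :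
    derivPoly t a z v = derivPoly t a z' v' := by
  refine sum_congr rfl fun i _ => ?_
  have h1 : z ^ (a - i) = z' ^ (a - i) := by rcases ha with rfl | rfl <;> simp
  have h2 : v ^ (t - i) = v' ^ (t - i) := by rcases ht with rfl | rfl <;> simp
  rw [h1, h2]

variable {θ : ℂ} {x x' : Fin l → ℂ} {y y' : Fin m → ℂ} (D : Data θ x x' y y')

/-- The exponent of the denominator. -/
def qExp (l m A L S t : ℕ) : ℕ := A + t + l * m * (L * S)

/-- The matrix of the derivative. -/
def sumMat {L A S : ℕ} (p : FunIndex l L A → ℤ[X]) (t : ℕ) (σ : Fin m → Fin S) :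
    Matrix (Fin D.ν) (Fin D.ν) ℤ[X] :=
  ∑ a, p a • valueMat D t a σ

theorem acts_sumMat {L A S : ℕ} (p : FunIndex l L A → ℤ[X]) {t : ℕ}
    (hx : t = 0 ∨ x' = x) (hy : A ≤ 1 ∨ y' = y) (σ : Fin m → Fin S) :
    Acts θ D.w (sumMat D p t σ) (aeval θ D.q ^ qExp l m A L S t * valueSum θ x y p t σ) := by
  rw [valueSum, mul_sum]
  refine FA.GelfondCubic.acts_sum _ _ _ fun a _ => ?_
  rw [mul_left_comm, derivPoly_congr (z' := lin y' σ) (v' := lin x' a.1) ?_ ?_]
  · exact (acts_valueMat D t a σ).smul (p a)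
  · rcases hy with h | h
    · exact Or.inl (by have := a.2.isLt; omega)
    · exact Or.inr (by rw [h])
  · exact hx.imp id fun h => by rw [h]

/-- **The auxiliary polynomials.** -/
theorem exists_aux (hθ : Transcendental ℚ θ) {L A S T : ℕ} (hL : 1 ≤ L) (hA : 1 ≤ A) (hS : 1 ≤ S)
    (hT : 1 ≤ T) (hx : T ≤ 1 ∨ x' = x) (hy : A ≤ 1 ∨ y' = y)
    (hcount : 4 * D.ν * T * S ^ m ≤ A * L ^ l) {d : ℕ} {B : ℝ} (hB : 1 ≤ B)
    (hsmall : ∀ t < T, ∀ (a : FunIndex l L A) (σ : Fin m → Fin S),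
      Small (valueMat D t a σ) d B) :
    ∃ p : FunIndex l L A → ℤ[X], p ≠ 0 ∧ (∀ a, (p a).natDegree ≤ d) ∧
      (∀ a, len (p a) ≤ (d + 1 : ℕ) * ((L ^ l * A * (d + 1) : ℕ) * B)) ∧
      ∀ t < T, ∀ σ : Fin m → Fin S, valueSum θ x y p t σ = 0 := by
  have : Nonempty (Fin S) := ⟨⟨0, hS⟩⟩
  have : Nonempty (Fin L) := ⟨⟨0, hL⟩⟩
  have : Nonempty (Fin A) := ⟨⟨0, hA⟩⟩
  have : Nonempty (Fin T) := ⟨⟨0, hT⟩⟩
  have : Nonempty (Fin D.ν) := ⟨⟨0, D.hν⟩⟩
  set i₀ : Fin D.ν := ⟨0, D.hν⟩
  have hcardF : Fintype.card (FunIndex l L A) = L ^ l * A := by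
    rw [Fintype.card_eq_nat_card, Nat.card_prod, Nat.card_fun, Nat.card_fin, Nat.card_fin,
      Nat.card_fin]
  have hc : 2 * (Fintype.card (Fin T × (Fin m → Fin S) × Fin D.ν) * (d + d + 1)) ≤
      Fintype.card (FunIndex l L A) * (d + 1) := by
    rw [hcardF]
    simp only [Fintype.card_prod, Fintype.card_fun, Fintype.card_fin]
    calc 2 * (T * (S ^ m * D.ν) * (d + d + 1)) ≤ 2 * (T * (S ^ m * D.ν) * (2 * (d + 1))) := by
          gcongr; omega
      _ = 4 * D.ν * T * S ^ m * (d + 1) := by ring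
      _ ≤ A * L ^ l * (d + 1) := Nat.mul_le_mul_right _ hcount
      _ = _ := by ring
  obtain ⟨p, hp0, hpd, hpl, hp⟩ := exists_small_solution
    (fun (e : Fin T × (Fin m → Fin S) × Fin D.ν) a => valueMat D e.1 a e.2.1 i₀ e.2.2) hB
    (fun e a => (hsmall e.1 e.1.2 a e.2.1 i₀ e.2.2).1)
    (fun e a => (hsmall e.1 e.1.2 a e.2.1 i₀ e.2.2).2) hc
  rw [hcardF] at hpl
  refine ⟨p, hp0, hpd, hpl, fun t ht σ => ?_⟩
  have hrow : ∀ j, sumMat D p t σ i₀ j = 0 := fun j => by
    simp only [sumMat, Matrix.sum_apply, Matrix.smul_apply, smul_eq_mul]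
    rw [← hp (⟨t, ht⟩, σ, j)]
    exact sum_congr rfl fun a _ => mul_comm _ _
  have h := congrFun (acts_sumMat D p (t := t) (hx.imp (fun h => by omega) id) hy σ) i₀
  rw [mulVec, dotProduct, sum_eq_zero fun j _ => by simp [hrow j], Pi.smul_apply, smul_eq_mul,
    eq_comm, mul_eq_zero, mul_eq_zero] at h
  rcases h with (h | h) | h
  · exact absurd h (pow_ne_zero _ (aeval_ne_zero hθ D.hq))
  · exact h
  · exact absurd h (D.hw i₀)

theorem lin_injective {n B : ℕ} {u : Fin n → ℂ} (hu : LinearIndependent ℚ u) :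
    Function.Injective (lin u : (Fin n → Fin B) → ℂ) := fun μ μ' h => by
  have h0 := Fintype.linearIndependent_iff.1 hu
    (fun i => ((μ i : ℕ) : ℚ) - ((μ' i : ℕ) : ℚ)) (by
      simp only [Rat.smul_def, Rat.cast_sub, Rat.cast_natCast, sub_mul, sum_sub_distrib]
      exact sub_eq_zero.2 h)
  funext i
  exact Fin.ext (by exact_mod_cast sub_eq_zero.1 (h0 i))

/-- The sum of the norms, plus one. -/
def linSize {n : ℕ} (u : Fin n → ℂ) : ℝ := 1 + ∑ i, ‖u i‖

theorem one_le_linSize {n : ℕ} (u : Fin n → ℂ) : 1 ≤ linSize u :=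
  le_add_of_nonneg_right (sum_nonneg fun _ _ => norm_nonneg _)

theorem norm_lin_le {n B : ℕ} (u : Fin n → ℂ) (μ : Fin n → Fin B) :
    ‖lin u μ‖ ≤ linSize u * B := by
  rw [linSize, add_mul, one_mul, sum_mul]
  refine le_trans ?_ (le_add_of_nonneg_left (Nat.cast_nonneg B))
  refine (norm_sum_le _ _).trans (sum_le_sum fun i _ => ?_)
  rw [norm_mul, Complex.norm_natCast, mul_comm]
  exact mul_le_mul_of_nonneg_left (Nat.cast_le.2 (μ i).isLt.le) (norm_nonneg _)

theorem coeff_ne_zero (hθ : Transcendental ℚ θ) {L A : ℕ} {p : FunIndex l L A → ℤ[X]}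
    (hp : p ≠ 0) : (fun a => aeval θ (p a)) ≠ 0 := fun e => hp (funext fun a => by
  by_contra hne
  exact aeval_ne_zero hθ hne (congrFun e a))

/-- **A nonzero value.** -/
theorem exists_value_ne_zero (hθ : Transcendental ℚ θ) (hx : LinearIndependent ℚ x)
    (hy : LinearIndependent ℚ y) {c : ℕ} (hc : 18 * linSize x * linSize y + 4 ≤ c)
    {L A S' T' : ℕ} (hL : 1 ≤ L) (hA : 1 ≤ A) (hS' : 1 ≤ S')
    (hzero : c * (A * L ^ l + S' * L) ≤ T' * S' ^ m)
    {p : FunIndex l L A → ℤ[X]} (hp : p ≠ 0) :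
    ∃ t < T', ∃ σ : Fin m → Fin S', valueSum θ x y p t σ ≠ 0 := by
  classical
  by_contra! hall
  have hxs := one_le_linSize x
  have hys := one_le_linSize y
  set R := linSize y * S' with hR
  have hR0 : 0 < R := mul_pos (by linarith) (by exact_mod_cast hS')
  have h := zero_estimate_poly (fun a => aeval θ (p a)) (fun μ : Fin l → Fin L => lin x μ)
    (lin_injective hx) (coeff_ne_zero hθ hp) (Δ := linSize x * L) (R := R) (by positivity)
    (fun μ => norm_lin_le x μ) hR0 (univ.image (lin y : (Fin m → Fin S') → ℂ))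
    (fun z hz => by
      obtain ⟨σ, -, rfl⟩ := mem_image.1 hz
      exact norm_lin_le y σ)
    (m := T') fun z hz t ht => by
      obtain ⟨σ, -, rfl⟩ := mem_image.1 hz
      rw [iteratedDeriv_aux, hall t ht σ]
  rw [card_image_of_injective _ (lin_injective hy), card_univ, Fintype.card_fun,
    Fintype.card_fun, Fintype.card_fin, Fintype.card_fin, Fintype.card_fin, Fintype.card_fin,
    mul_comm (L ^ l) A] at h
  set n := A * L ^ l with hn
  set M := T' * S' ^ m with hM
  have hn0 : (1 : ℝ) ≤ n := by exact_mod_cast Nat.mul_pos hA (Nat.pow_pos hL)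
  have h9 : (n : ℝ) * 9 ^ n ≤ Real.exp (3 * n) := by
    calc (n : ℝ) * 9 ^ n ≤ 2 ^ n * 9 ^ n :=
          mul_le_mul_of_nonneg_right (by exact_mod_cast (Nat.lt_two_pow_self).le) (by positivity)
      _ = (18 : ℝ) ^ n := by rw [← mul_pow]; norm_num
      _ ≤ Real.exp 3 ^ n := pow_le_pow_left₀ (by norm_num) (by
          rw [show (3 : ℝ) = 1 + 1 + 1 by norm_num, Real.exp_add, Real.exp_add]
          have := Real.exp_one_gt_d9
          nlinarith [mul_le_mul this.le this.le (by norm_num) (Real.exp_pos 1).le]) n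
      _ = _ := by rw [← Real.exp_nat_mul, mul_comm]
  have h4 : Real.exp M ≤ (4 : ℝ) ^ M := by
    rw [← mul_one (M : ℝ), Real.exp_nat_mul]
    exact pow_le_pow_left₀ (Real.exp_pos _).le (by linarith [Real.exp_one_lt_three]) M
  have h5 : Real.exp M ≤ Real.exp (3 * n + 18 * R * (linSize x * L)) := by
    rw [Real.exp_add]
    exact h4.trans (h.trans (mul_le_mul_of_nonneg_right h9 (Real.exp_pos _).le))
  rw [Real.exp_le_exp, hR] at h5
  have hz : (c : ℝ) * ((n : ℝ) + S' * L) ≤ M := by exact_mod_cast hzero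
  have hSL : (0 : ℝ) ≤ (S' : ℝ) * L := by positivity
  nlinarith [mul_le_mul_of_nonneg_right hc (show 0 ≤ (n : ℝ) + S' * L by positivity),
    mul_nonneg (mul_nonneg (zero_le_one.trans hxs) (zero_le_one.trans hys))
      (show (0 : ℝ) ≤ n by positivity)]

/-- **Its size.** -/
theorem norm_valueSum_le (hy : LinearIndependent ℚ y) {L A S S' T N : ℕ} (hN : 1 ≤ N)
    (hSS : S ≤ S') {p : FunIndex l L A → ℤ[X]} {P : ℝ} (hP : ∀ a, ‖aeval θ (p a)‖ ≤ P)
    (hzero : ∀ t < T, ∀ σ : Fin m → Fin S, valueSum θ x y p t σ = 0)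
    (t : ℕ) (σ : Fin m → Fin S') :
    ‖valueSum θ x y p t σ‖ ≤ t.factorial *
      ((L ^ l * A : ℕ) * (P * ((linSize y * S' + 1) * (3 * N)) ^ A *
          Real.exp (linSize x * L * ((linSize y * S' + 1) * (3 * N)))) *
        ((2 : ℝ) ^ Nat.log 2 N)⁻¹ ^ (T * S ^ m)) := by
  classical
  have hN1 : (1 : ℝ) ≤ N := by exact_mod_cast hN
  have hys := one_le_linSize y
  set w : (Fin l → Fin L) → ℂ := fun μ => lin x μ
  set r := linSize y * S' + 1 with hr
  have hr1 : 1 ≤ r := le_add_of_nonneg_left (by positivity)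
  set R := r * (3 * N) with hR
  have hrR : r < R := lt_mul_of_one_lt_right (by linarith) (by linarith)
  have hq : 2 * r / (R - r) ≤ ((2 : ℝ) ^ Nat.log 2 N)⁻¹ := by
    have h2 : (2 : ℝ) ^ Nat.log 2 N ≤ N := by exact_mod_cast Nat.pow_log_le_self 2 (by omega)
    rw [div_le_iff₀ (by linarith), inv_mul_eq_div, le_div_iff₀ (by positivity), hR]
    nlinarith [mul_le_mul_of_nonneg_left h2 (show 0 ≤ r by linarith)]
  have hR1 : 1 ≤ R := by linarith
  have hB : ∀ z : ℂ, ‖z‖ ≤ R → ‖expPolyM (fun a => aeval θ (p a)) w z‖ ≤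
      (L ^ l * A : ℕ) * (P * R ^ A * Real.exp (linSize x * L * R)) := fun z hz => by
    refine (norm_expPolyM_le _ w hP (Δ := linSize x * L)
      (fun μ => norm_lin_le x μ) hR1 hz).trans_eq ?_
    simp only [Fintype.card_fun, Fintype.card_fin]
    push_cast
    ring
  set Z := (univ : Finset (Fin m → Fin S)).image (lin y)
  have hcard : Z.card = S ^ m := by
    rw [card_image_of_injective _ (lin_injective hy), card_univ, Fintype.card_fun,
      Fintype.card_fin, Fintype.card_fin]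
  have hbound : ∀ z : ℂ, ‖z‖ ≤ r → ‖expPolyM (fun a => aeval θ (p a)) w z‖ ≤
      (L ^ l * A : ℕ) * (P * R ^ A * Real.exp (linSize x * L * R)) *
        ((2 : ℝ) ^ Nat.log 2 N)⁻¹ ^ (T * S ^ m) := fun z hz => by
    refine (norm_le_of_zeros (differentiable_expPolyM _ w) Z T hrR
      (by linarith) (fun u hu => ?_) (fun u hu s hs => ?_) hB hz).trans ?_
    · obtain ⟨σ', -, rfl⟩ := mem_image.1 hu
      exact (norm_lin_le y σ').trans (le_trans (mul_le_mul_of_nonneg_left (Nat.cast_le.2 hSS)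
        (by linarith)) (le_add_of_nonneg_right zero_le_one))
    · obtain ⟨σ', -, rfl⟩ := mem_image.1 hu
      rw [iteratedDeriv_aux, hzero s hs σ']
    · rw [hcard]
      exact mul_le_mul_of_nonneg_left
        (pow_le_pow_left₀ (div_nonneg (by linarith) (by linarith)) hq _)
        ((norm_nonneg _).trans (hB 0 (by simpa using zero_le_one.trans hR1)))
  have hder := Complex.norm_iteratedDeriv_le_of_forall_mem_sphere_norm_le t one_pos
    (differentiable_expPolyM (fun a => aeval θ (p a)) w).diffContOnCl fun z hz => hbound z (by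
      rw [mem_sphere_iff_norm] at hz
      have := norm_le_norm_add_norm_sub' z (lin y σ)
      linarith [norm_lin_le y σ])
  rw [iteratedDeriv_aux, one_pow, div_one] at hder
  exact hder

end FA.SmallTrdeg

end
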