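import Fermat.Agent.SmallTrdeg.SmallPolynomial
import Fermat.Agent.GelfondCubic.Criterion
import Fermat.Agent.GelfondCubic.Field

/-!
# The contradiction with Gelfond's criterion
-/

set_option autoImplicit false

noncomputable section

open Finset Polynomial Filter
open scoped IntermediateField

namespace FA.SmallTrdeg

open FA.GelfondCubic (len gelfond_criterion exists_matrices)

variable {l m : ℕ} {θ : ℂ} {x x' : Fin l → ℂ} {y y' : Fin m → ℂ}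

theorem not_data (D : Data θ x x' y y') (hθ : Transcendental ℚ θ) (hx : LinearIndependent ℚ x)
    (hy : LinearIndependent ℚ y) (σ : Scheme l m D.ν (zeroConst x y))
    (hx' : (∀ N, σ.T' N ≤ 1) ∨ x' = x) (hy' : (∀ N, σ.A N ≤ 1) ∨ y' = y) : False := by
  obtain ⟨cD, cT, cU, c4, hcD, hcT, hcU, hc4, hev⟩ :=
    exists_small_polynomial D hθ hx hy σ hx' hy'
  obtain ⟨C, hC⟩ := gelfond_criterion hθ σ.a_nonneg
  set Dn : ℕ → ℝ := fun N => cD * σ.V N with hDn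
  set Tn : ℕ → ℝ := fun N => cT * σ.U N with hTn
  have hD0 : (0 : ℝ) ≤ cD := by linarith
  have hT0 : (0 : ℝ) ≤ cT := by linarith
  have hT : Tendsto Tn atTop atTop := σ.tendsto.const_mul_atTop (by linarith)
  have hDT : ∀ᶠ N in atTop, 1 ≤ Dn N ∧ Dn N ≤ Tn N ∧ Dn N ≤ σ.a * Dn (N + 1) ∧
      Tn N ≤ σ.a * Tn (N + 1) ∧ Dn (N + 1) ≤ σ.a * Dn N ∧ Tn (N + 1) ≤ σ.a * Tn N := by
    filter_upwards [σ.units] with N hN
    obtain ⟨hV, hVU, h1, h2, h3, h4⟩ := hN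
    refine ⟨one_le_mul_of_one_le_of_one_le hcD hV, mul_le_mul hcT hVU (by linarith) hT0,
      ?_, ?_, ?_, ?_⟩ <;> simp only [hDn, hTn] <;> rw [mul_left_comm]
    · exact mul_le_mul_of_nonneg_left h1 hD0
    · exact mul_le_mul_of_nonneg_left h2 hT0
    · exact mul_le_mul_of_nonneg_left h3 hD0
    · exact mul_le_mul_of_nonneg_left h4 hT0
  set C' : ℝ := 2 * (|C| * cD * cT + cU + c4) with hC'
  have hev' : ∀ᶠ N in atTop, ∃ P : ℤ[X], P ≠ 0 ∧ (P.natDegree : ℝ) ≤ Dn N ∧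
      P.natDegree + Real.log (len P) ≤ Tn N ∧
      ‖aeval θ P‖ ≤ Real.exp (-(C * (Dn N * Tn N))) := by
    filter_upwards [hev, σ.main C', σ.units] with N hN hmain hunits
    obtain ⟨P, hP0, hd, hs, hsm⟩ := hN
    obtain ⟨hV, hVU, -⟩ := hunits
    refine ⟨P, hP0, hd, hs, hsm.trans (Real.exp_le_exp.2 ?_)⟩
    have hVU0 : 0 ≤ σ.V N * σ.U N := mul_nonneg (by linarith) (by linarith)
    set W : ℝ := ((σ.L N * σ.S' N * N : ℕ) : ℝ) with hW
    have hW0 : 0 ≤ W := Nat.cast_nonneg _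
    have h1 : C * (Dn N * Tn N) ≤ |C| * cD * cT * (σ.V N * σ.U N) := by
      calc C * (Dn N * Tn N) = C * (cD * cT * (σ.V N * σ.U N)) := by simp only [hDn, hTn]; ring
        _ ≤ |C| * (cD * cT * (σ.V N * σ.U N)) :=
            mul_le_mul_of_nonneg_right (le_abs_self C) (by positivity)
        _ = _ := by ring
    have h2 : cU * σ.U N ≤ cU * (σ.V N * σ.U N) :=
      mul_le_mul_of_nonneg_left (le_mul_of_one_le_left (by linarith) hV) hcU
    have hcc : 0 ≤ |C| * cD * cT := by positivity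
    rw [hC', mul_add] at hmain
    linarith [mul_nonneg hcc hW0, mul_nonneg hcU hW0, mul_nonneg hc4 hVU0]
  obtain ⟨N₀, hN₀⟩ := eventually_atTop.1 hev'
  choose P hP using hN₀
  refine hC Dn Tn hDT hT (fun N => if h : N₀ ≤ N then P N h else 0) ?_
  filter_upwards [eventually_ge_atTop N₀] with N hN
  rw [dif_pos hN]
  exact hP N hN

/-- **No field of transcendence degree one holds the numbers.** -/
theorem false_of_schemes (hθ : Transcendental ℚ θ) (hx : LinearIndependent ℚ x)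
    (hy : LinearIndependent ℚ y)
    (hexp : ∀ i j, IsIntegral ℚ⟮θ⟯ (Complex.exp (x i * y j)))
    (σ : ∀ ν c : ℕ, 0 < ν → Scheme l m ν c)
    (hX : (∀ ν c h N, (σ ν c h).T' N ≤ 1) ∨ ∀ i, IsIntegral ℚ⟮θ⟯ (x i))
    (hY : (∀ ν c h N, (σ ν c h).A N ≤ 1) ∨ ∀ j, IsIntegral ℚ⟮θ⟯ (y j)) : False := by
  obtain ⟨x', hxi, hxx⟩ : ∃ x' : Fin l → ℂ, (∀ i, IsIntegral ℚ⟮θ⟯ (x' i)) ∧
      ((∀ ν c h N, (σ ν c h).T' N ≤ 1) ∨ x' = x) :=
    hX.elim (fun h => ⟨0, fun _ => isIntegral_zero, Or.inl h⟩) fun h => ⟨x, h, Or.inr rfl⟩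
  obtain ⟨y', hyi, hyy⟩ : ∃ y' : Fin m → ℂ, (∀ j, IsIntegral ℚ⟮θ⟯ (y' j)) ∧
      ((∀ ν c h N, (σ ν c h).A N ≤ 1) ∨ y' = y) :=
    hY.elim (fun h => ⟨0, fun _ => isIntegral_zero, Or.inl h⟩) fun h => ⟨y, h, Or.inr rfl⟩
  have hgen : ∀ i, IsIntegral ℚ⟮θ⟯ (gen x x' y y' i) := by
    rintro (_ | i | j | p)
    exacts [isIntegral_one, hxi i, hyi j, hexp p.1 p.2]
  obtain ⟨ν, w, q, M, hν, hw, hq, hact, hindep⟩ := exists_matrices hθ (gen x x' y y') hgen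
  exact not_data ⟨ν, w, q, M, hν, hw, hq, fun i => hact i, hindep⟩ hθ hx hy
    (σ ν (zeroConst x y) hν) (hxx.imp (fun h => h ν _ hν) id) (hyy.imp (fun h => h ν _ hν) id)

end FA.SmallTrdeg

end
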