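import Fermat.Agent.BrownawellWaldschmidt.Forms

/-!
# The matrices of the derivatives for several `x` and `y`

The numbers `x'`, `y'` may differ from `x`, `y` when the derivatives, or the powers of `z`, are
not used.
-/

set_option autoImplicit false

noncomputable section

open Finset Polynomial Matrix

namespace FA.SmallTrdeg

open FA.GelfondCubic (Acts Small len len_C acts_one small_one acts_sum small_sum)
open FA.BrownawellWaldschmidt (derivPoly choose_mul_descFactorial_le)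

variable {l m : ℕ}

/-- The index of the generators. -/
abbrev GenIndex (l m : ℕ) : Type := Unit ⊕ (Fin l ⊕ (Fin m ⊕ (Fin l × Fin m)))

/-- The index of `1`. -/
def oneIx : GenIndex l m := Sum.inl ()

/-- The index of `x' i`. -/
def xIx (i : Fin l) : GenIndex l m := Sum.inr (Sum.inl i)

/-- The index of `y' j`. -/
def yIx (j : Fin m) : GenIndex l m := Sum.inr (Sum.inr (Sum.inl j))

/-- The index of `exp (x i y j)`. -/
def eIx (p : Fin l × Fin m) : GenIndex l m := Sum.inr (Sum.inr (Sum.inr p))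

/-- The generators. -/
def gen (x x' : Fin l → ℂ) (y y' : Fin m → ℂ) : GenIndex l m → ℂ :=
  Sum.elim (fun _ => 1) (Sum.elim x' (Sum.elim y' fun p => Complex.exp (x p.1 * y p.2)))

/-- The matrices. -/
structure Data (θ : ℂ) (x x' : Fin l → ℂ) (y y' : Fin m → ℂ) where
  /-- the degree -/
  ν : ℕ
  /-- the basis -/
  w : Fin ν → ℂ
  /-- the denominator -/
  q : ℤ[X]
  /-- the matrices -/
  M : GenIndex l m → Matrix (Fin ν) (Fin ν) ℤ[X]
  /-- the degree is positive -/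
  hν : 0 < ν
  /-- no entry of the basis is zero -/
  hw : ∀ i, w i ≠ 0
  /-- the denominator is not zero -/
  hq : q ≠ 0
  /-- the action -/
  act : ∀ i, Acts θ w (M i) (aeval θ q * gen x x' y y' i)
  /-- independence over `ℤ[θ]` -/
  indep : ∀ c : Fin ν → ℤ[X], ∑ i, aeval θ (c i) * w i = 0 → c = 0

/-- The linear form `∑ μ i u i`. -/
def lin {n B : ℕ} (u : Fin n → ℂ) (μ : Fin n → Fin B) : ℂ := ∑ i, ((μ i : ℕ) : ℂ) * u i

theorem acts_prod {ν : ℕ} {θ : ℂ} {w : Fin ν → ℂ} : ∀ {n : ℕ}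
    {F : Fin n → Matrix (Fin ν) (Fin ν) ℤ[X]} {s : Fin n → ℂ}, (∀ i, Acts θ w (F i) (s i)) →
      Acts θ w (List.ofFn F).prod (∏ i, s i)
  | 0, F, s, _ => by simpa using acts_one
  | n + 1, F, s, h => by
    rw [List.ofFn_succ, List.prod_cons, Fin.prod_univ_succ]
    exact (h 0).mul (acts_prod fun i => h i.succ)

theorem small_prod {ν : ℕ} : ∀ {n : ℕ} {F : Fin n → Matrix (Fin ν) (Fin ν) ℤ[X]} {d : ℕ}
    {B : ℝ}, (∀ i, Small (F i) d B) → Small (List.ofFn F).prod (n * d) (((ν : ℝ) * B) ^ n)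
  | 0, F, d, B, _ => by simpa using small_one
  | n + 1, F, d, B, h => by
    rw [List.ofFn_succ, List.prod_cons]
    refine ((h 0).mul (small_prod fun i => h i.succ)).mono (le_of_eq (by ring))
      (le_of_eq (by ring))

variable {θ : ℂ} {x x' : Fin l → ℂ} {y y' : Fin m → ℂ} (D : Data θ x x' y y')

/-- `q ∑ μ i u i`. -/
def linMat {n B : ℕ} (ix : Fin n → GenIndex l m) (μ : Fin n → Fin B) :
    Matrix (Fin D.ν) (Fin D.ν) ℤ[X] :=
  ∑ i, C ((μ i : ℕ) : ℤ) • D.M (ix i)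

theorem acts_linMat {n B : ℕ} (ix : Fin n → GenIndex l m) (u : Fin n → ℂ)
    (hu : ∀ i, gen x x' y y' (ix i) = u i) (μ : Fin n → Fin B) :
    Acts θ D.w (linMat D ix μ) (aeval θ D.q * lin u μ) := by
  rw [lin, mul_sum]
  refine acts_sum _ _ _ fun i _ => ?_
  refine (iff_of_eq (congrArg (Acts θ D.w _) ?_)).2 ((D.act (ix i)).smul (C ((μ i : ℕ) : ℤ)))
  rw [hu, map_natCast, map_natCast]
  ring

/-- The polynomial part. -/
def polyMat {A L S : ℕ} (t : ℕ) (a : Fin A) (μ : Fin l → Fin L) (σ : Fin m → Fin S) :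
    Matrix (Fin D.ν) (Fin D.ν) ℤ[X] :=
  ∑ i ∈ range (t + 1), C (((t.choose i * (a : ℕ).descFactorial i : ℕ)) : ℤ) •
    (linMat D yIx σ ^ ((a : ℕ) - i) * linMat D xIx μ ^ (t - i) *
      D.M oneIx ^ (A + t - ((a : ℕ) - i) - (t - i)))

theorem acts_polyMat {A L S : ℕ} (t : ℕ) (a : Fin A) (μ : Fin l → Fin L) (σ : Fin m → Fin S) :
    Acts θ D.w (polyMat D t a μ σ)
      (aeval θ D.q ^ (A + t) * derivPoly t a (lin y' σ) (lin x' μ)) := by
  have h := acts_sum (range (t + 1)) _ _ fun i _ =>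
    ((((acts_linMat D yIx y' (fun _ => rfl) σ).pow ((a : ℕ) - i)).mul
      ((acts_linMat D xIx x' (fun _ => rfl) μ).pow (t - i))).mul
      ((D.act oneIx).pow (A + t - ((a : ℕ) - i) - (t - i)))).smul
      (C (((t.choose i * (a : ℕ).descFactorial i : ℕ)) : ℤ))
  refine (iff_of_eq (congrArg (Acts θ D.w (polyMat D t a μ σ)) ?_)).2 h
  rw [derivPoly, mul_sum]
  refine sum_congr rfl fun i _ => ?_
  have ha := a.isLt
  obtain ⟨r, hr⟩ : ∃ r, A + t = ((a : ℕ) - i) + (t - i) + r :=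
    ⟨_, (Nat.add_sub_cancel' (by omega)).symm⟩
  rw [show A + t - ((a : ℕ) - i) - (t - i) = r by omega, hr, map_natCast, map_natCast,
    show gen x x' y y' oneIx = 1 from rfl, mul_one, pow_add, pow_add, mul_pow, mul_pow]
  push_cast
  ring

/-- One factor of the exponential part. -/
def factMat {L S : ℕ} (μ : Fin l → Fin L) (σ : Fin m → Fin S) (k : Fin (l * m)) :
    Matrix (Fin D.ν) (Fin D.ν) ℤ[X] :=
  D.M (eIx (finProdFinEquiv.symm k)) ^
      ((μ (finProdFinEquiv.symm k).1 : ℕ) * (σ (finProdFinEquiv.symm k).2 : ℕ)) *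
    D.M oneIx ^
      (L * S - (μ (finProdFinEquiv.symm k).1 : ℕ) * (σ (finProdFinEquiv.symm k).2 : ℕ))

/-- The exponential part. -/
def expMat {L S : ℕ} (μ : Fin l → Fin L) (σ : Fin m → Fin S) :
    Matrix (Fin D.ν) (Fin D.ν) ℤ[X] :=
  (List.ofFn (factMat D μ σ)).prod

theorem acts_expMat {L S : ℕ} (μ : Fin l → Fin L) (σ : Fin m → Fin S) :
    Acts θ D.w (expMat D μ σ)
      (aeval θ D.q ^ (l * m * (L * S)) * Complex.exp (lin x μ * lin y σ)) := by
  set Q := aeval θ D.q with hQ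
  have hf : ∀ k, Acts θ D.w (factMat D μ σ k) (Q ^ (L * S) *
      Complex.exp (x (finProdFinEquiv.symm k).1 * y (finProdFinEquiv.symm k).2) ^
        ((μ (finProdFinEquiv.symm k).1 : ℕ) * (σ (finProdFinEquiv.symm k).2 : ℕ))) := fun k => by
    set p := finProdFinEquiv.symm k with hp
    refine (iff_of_eq (congrArg (Acts θ D.w _) ?_)).2 (((D.act (eIx p)).pow _).mul
      ((D.act oneIx).pow (L * S - (μ p.1 : ℕ) * (σ p.2 : ℕ))))
    obtain ⟨r, hr⟩ := Nat.exists_eq_add_of_le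
      (Nat.mul_le_mul (μ p.1).isLt.le (σ p.2).isLt.le)
    rw [hr, Nat.add_sub_cancel_left, show gen x x' y y' oneIx = 1 from rfl, mul_one,
      show gen x x' y y' (eIx p) = Complex.exp (x p.1 * y p.2) from rfl, mul_pow, pow_add,
      hQ]
    ring
  refine (iff_of_eq (congrArg (Acts θ D.w (expMat D μ σ)) ?_)).2 (acts_prod hf)
  rw [prod_mul_distrib, prod_const, card_univ, Fintype.card_fin, ← pow_mul, mul_comm (L * S),
    lin, lin, sum_mul_sum, ← Fintype.sum_prod_type', Complex.exp_sum]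
  refine congrArg _ ((Equiv.prod_comp finProdFinEquiv.symm fun p : Fin l × Fin m =>
    Complex.exp (x p.1 * y p.2) ^ ((μ p.1 : ℕ) * (σ p.2 : ℕ))).trans
      (prod_congr rfl fun p _ => ?_)).symm
  rw [← Complex.exp_nat_mul]
  congr 1
  push_cast
  ring

/-- The matrix of the derivative. -/
def valueMat {A L S : ℕ} (t : ℕ) (a : (Fin l → Fin L) × Fin A) (σ : Fin m → Fin S) :
    Matrix (Fin D.ν) (Fin D.ν) ℤ[X] :=
  polyMat D t a.2 a.1 σ * expMat D a.1 σ

theorem acts_valueMat {A L S : ℕ} (t : ℕ) (a : (Fin l → Fin L) × Fin A) (σ : Fin m → Fin S) :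
    Acts θ D.w (valueMat D t a σ) (aeval θ D.q ^ (A + t + l * m * (L * S)) *
      (derivPoly t a.2 (lin y' σ) (lin x' a.1) * Complex.exp (lin x a.1 * lin y σ))) := by
  refine (iff_of_eq (congrArg (Acts θ D.w (valueMat D t a σ)) ?_)).2
    ((acts_polyMat D t a.2 a.1 σ).mul (acts_expMat D a.1 σ))
  rw [pow_add]
  ring

theorem exists_small_valueMat :
    ∃ (d : ℕ) (K : ℝ), 1 ≤ K ∧ ∀ {A L S : ℕ} (H t : ℕ) (a : (Fin l → Fin L) × Fin A)
      (σ : Fin m → Fin S), 1 ≤ H → A ≤ H → L ≤ H → S ≤ H →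
        Small (valueMat D t a σ) (d * (A + t + l * m * (L * S)))
          (K ^ (A + t + l * m * (L * S) + 1) * (H : ℝ) ^ (A + 2 * t)) := by
  set d := univ.sup fun z => univ.sup fun i => univ.sup fun j => (D.M z i j).natDegree with hd
  set B₀ : ℝ := 1 + ∑ z, ∑ i, ∑ j, len (D.M z i j) with hB₀
  have hlen : ∀ z i j, 0 ≤ len (D.M z i j) := fun _ _ _ => FA.GelfondCubic.len_nonneg _
  have hB1 : 1 ≤ B₀ := le_add_of_nonneg_right (sum_nonneg fun z _ => sum_nonneg fun i _ =>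
    sum_nonneg fun j _ => hlen z i j)
  have hM : ∀ z, Small (D.M z) d B₀ := fun z i j => by
    constructor
    · rw [hd]
      exact le_trans (le_sup (f := fun j => (D.M z i j).natDegree) (mem_univ j))
        (le_trans (le_sup (f := fun i => univ.sup fun j => (D.M z i j).natDegree) (mem_univ i))
          (le_sup (f := fun z => univ.sup fun i => univ.sup fun j => (D.M z i j).natDegree)
            (mem_univ z)))
    · have h1 : len (D.M z i j) ≤ ∑ j, len (D.M z i j) :=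
        single_le_sum (f := fun j => len (D.M z i j)) (fun j _ => hlen z i j) (mem_univ j)
      have h2 : ∑ j, len (D.M z i j) ≤ ∑ i, ∑ j, len (D.M z i j) :=
        single_le_sum (f := fun i => ∑ j, len (D.M z i j))
          (fun i _ => sum_nonneg fun j _ => hlen z i j) (mem_univ i)
      have h3 : ∑ i, ∑ j, len (D.M z i j) ≤ ∑ z, ∑ i, ∑ j, len (D.M z i j) :=
        single_le_sum (f := fun z => ∑ i, ∑ j, len (D.M z i j))
          (fun z _ => sum_nonneg fun i _ => sum_nonneg fun j _ => hlen z i j) (mem_univ z)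
      rw [hB₀]; linarith
  set n : ℝ := (D.ν : ℝ) with hn
  have hn1 : 1 ≤ n := by rw [hn]; exact_mod_cast D.hν
  set c : ℝ := ((l + m + 1 : ℕ) : ℝ) with hc
  have hc1 : 1 ≤ c := by rw [hc]; exact_mod_cast (show 1 ≤ l + m + 1 by omega)
  set K : ℝ := 4 * c * (n ^ 4 * B₀) with hK
  have hn4 : 1 ≤ n ^ 4 * B₀ := one_le_mul_of_one_le_of_one_le (one_le_pow₀ hn1) hB1
  have hK1 : 1 ≤ K := by rw [hK]; nlinarith
  refine ⟨d, K, hK1, fun {A L S} H t a σ hH hA hL hS => ?_⟩
  have hH1 : (1 : ℝ) ≤ H := by exact_mod_cast hH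
  have hlin : ∀ {k B : ℕ} (ix : Fin k → GenIndex l m) (μ : Fin k → Fin B), B ≤ H →
      k ≤ l + m + 1 → Small (linMat D ix μ) d (c * ((H : ℝ) * B₀)) := fun ix μ hB hk => by
    refine (small_sum _ _ fun i _ => ((hM (ix i)).smul (C ((μ i : ℕ) : ℤ)) (natDegree_C _).le
      (B' := (H : ℝ)) ?_).mono (zero_add d).le le_rfl).mono le_rfl ?_
    · rw [len_C, Int.cast_natCast, Nat.abs_cast]
      exact_mod_cast (μ i).isLt.le.trans hB
    · rw [sum_const, card_univ, Fintype.card_fin, nsmul_eq_mul, hc]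
      exact mul_le_mul_of_nonneg_right (Nat.cast_le.2 hk) (by positivity)
  have hterm : ∀ i ∈ range (t + 1), Small
      (C (((t.choose i * (a.2 : ℕ).descFactorial i : ℕ)) : ℤ) •
        (linMat D yIx σ ^ ((a.2 : ℕ) - i) * linMat D xIx a.1 ^ (t - i) *
          D.M oneIx ^ (A + t - ((a.2 : ℕ) - i) - (t - i))))
      (d * (A + t)) ((2 * H : ℝ) ^ t * (n ^ 2 * (n * c * B₀) ^ (A + t) * (H : ℝ) ^ (A + t))) := by
    intro i hi
    have hi' : i ≤ t := Nat.lt_succ_iff.1 (mem_range.1 hi)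
    have ha := a.2.isLt
    obtain ⟨r, hr⟩ : ∃ r, A + t = ((a.2 : ℕ) - i) + (t - i) + r :=
      ⟨_, (Nat.add_sub_cancel' (by omega)).symm⟩
    rw [show A + t - ((a.2 : ℕ) - i) - (t - i) = r by omega]
    refine (((((hlin yIx σ hS (by omega)).pow ((a.2 : ℕ) - i)).mul
      ((hlin xIx a.1 hL (by omega)).pow (t - i))).mul ((hM oneIx).pow r)).smul _
      (natDegree_C _).le (B' := (2 * H : ℝ) ^ t) ?_).mono ?_ ?_
    · rw [len_C, Int.cast_natCast, Nat.abs_cast]
      exact_mod_cast choose_mul_descFactorial_le hH (ha.le.trans hA) hi'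
    · rw [hr]; exact le_of_eq (by ring)
    · refine mul_le_mul_of_nonneg_left ?_ (by positivity)
      rw [← hn, hr]
      simp only [pow_add]
      calc n * (n * ((n * (c * (↑H * B₀))) ^ ((a.2 : ℕ) - i) * (n * (c * (↑H * B₀))) ^ (t - i)) *
            (n * B₀) ^ r)
          ≤ n * (n * ((n * (c * (↑H * B₀))) ^ ((a.2 : ℕ) - i) *
              (n * (c * (↑H * B₀))) ^ (t - i)) * (n * (c * (↑H * B₀))) ^ r) := by
            gcongr
            exact le_trans (le_mul_of_one_le_left (by linarith) hH1)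
              (le_mul_of_one_le_left (by positivity) hc1)
        _ = _ := by simp only [mul_pow]; ring
  have hpoly : Small (polyMat D t a.2 a.1 σ) (d * (A + t))
      (n ^ 2 * (4 * (n * c * B₀)) ^ (A + t) * (H : ℝ) ^ (A + 2 * t)) := by
    refine (small_sum _ _ hterm).mono le_rfl ?_
    rw [sum_const, card_range, nsmul_eq_mul]
    have h2 : ((t + 1 : ℕ) : ℝ) ≤ 2 ^ t := by exact_mod_cast Nat.lt_two_pow_self (n := t)
    calc ((t + 1 : ℕ) : ℝ) * ((2 * H : ℝ) ^ t * (n ^ 2 * (n * c * B₀) ^ (A + t) *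
          (H : ℝ) ^ (A + t)))
        ≤ (2 : ℝ) ^ t * ((2 * H : ℝ) ^ t * (n ^ 2 * (n * c * B₀) ^ (A + t) *
          (H : ℝ) ^ (A + t))) := mul_le_mul_of_nonneg_right h2 (by positivity)
      _ = n ^ 2 * ((4 : ℝ) ^ t * (n * c * B₀) ^ (A + t)) * (H : ℝ) ^ (A + 2 * t) := by
          rw [show (4 : ℝ) = 2 * 2 by norm_num]
          simp only [mul_pow, pow_add, two_mul t]
          ring
      _ ≤ n ^ 2 * ((4 : ℝ) ^ (A + t) * (n * c * B₀) ^ (A + t)) * (H : ℝ) ^ (A + 2 * t) := by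
          gcongr
          · norm_num
          · omega
      _ = _ := by rw [← mul_pow]
  have hexp : Small (expMat D a.1 σ) (d * (l * m * (L * S)))
      ((n ^ 2) ^ (l * m) * (n * B₀) ^ (l * m * (L * S))) := by
    refine (small_prod (d := d * (L * S)) (B := n * (n * B₀) ^ (L * S)) fun k => ?_).mono
      (le_of_eq (by ring)) (le_of_eq ?_)
    · obtain ⟨r, hr⟩ := Nat.exists_eq_add_of_le
        (Nat.mul_le_mul (a.1 (finProdFinEquiv.symm k).1).isLt.le
          (σ (finProdFinEquiv.symm k).2).isLt.le)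
      refine (((hM _).pow _).mul ((hM oneIx).pow _)).mono ?_ ?_
      all_goals rw [hr, Nat.add_sub_cancel_left]
      · exact le_of_eq (by ring)
      · rw [← hn]
        exact le_of_eq (by ring)
    · rw [← hn, ← mul_assoc, ← sq, mul_pow, ← pow_mul, ← pow_mul, mul_comm (l * m)]
  refine (hpoly.mul hexp).mono (le_of_eq (by ring)) ?_
  rw [← hn]
  set E := l * m * (L * S) with hE
  have hlm : (n ^ 2) ^ (l * m) ≤ (n ^ 2) ^ E := by
    refine pow_le_pow_right₀ (one_le_pow₀ hn1) ?_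
    rcases Nat.eq_zero_or_pos l with hl | hl
    · simp [hE, hl]
    rcases Nat.eq_zero_or_pos m with hm | hm
    · simp [hE, hm]
    exact Nat.le_mul_of_pos_right _ (Nat.mul_pos ((Nat.zero_le _).trans_lt (a.1 ⟨0, hl⟩).isLt)
      ((Nat.zero_le _).trans_lt (σ ⟨0, hm⟩).isLt))
  have h1 : 4 * (n * c * B₀) ≤ K := by
    rw [hK]
    have : n ≤ n ^ 4 := le_self_pow₀ hn1 (by norm_num)
    nlinarith [mul_le_mul_of_nonneg_right this (show 0 ≤ c * B₀ by positivity)]
  have h3 : n ^ 3 ≤ K := by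
    have h34 : n ^ 3 ≤ n ^ 4 := pow_le_pow_right₀ hn1 (by norm_num)
    rw [hK]; nlinarith
  have h2 : n ^ 2 * (n * B₀) ≤ K := by
    have h34 : n ^ 3 ≤ n ^ 4 := pow_le_pow_right₀ hn1 (by norm_num)
    rw [hK]; nlinarith [mul_le_mul_of_nonneg_right h34 (show 0 ≤ B₀ by linarith)]
  calc n * (n ^ 2 * (4 * (n * c * B₀)) ^ (A + t) * (H : ℝ) ^ (A + 2 * t) *
        ((n ^ 2) ^ (l * m) * (n * B₀) ^ E))
      ≤ n * (n ^ 2 * (4 * (n * c * B₀)) ^ (A + t) * (H : ℝ) ^ (A + 2 * t) *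
        ((n ^ 2) ^ E * (n * B₀) ^ E)) := by gcongr
    _ = n ^ 3 * (4 * (n * c * B₀)) ^ (A + t) * (n ^ 2 * (n * B₀)) ^ E *
        (H : ℝ) ^ (A + 2 * t) := by rw [mul_pow (n ^ 2)]; ring
    _ ≤ K * K ^ (A + t) * K ^ E * (H : ℝ) ^ (A + 2 * t) := by gcongr
    _ = K ^ (A + t + E + 1) * (H : ℝ) ^ (A + 2 * t) := by rw [pow_succ, pow_add]; ring

end FA.SmallTrdeg

end
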