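import Fermat.Agent.SmallTrdeg.SmallPolynomial
import Fermat.Agent.GelfondCubic.Parameters

/-!
# The parameters of the three cases
-/

set_option autoImplicit false

noncomputable section

open Filter

namespace FA.SmallTrdeg

open FA.GelfondCubic (slowPar tendsto_slowPar slowPar_le_log slowPar_pow_four_le slowPar_pow_le
  slowPar_succ_le slowPar_le_succ log_succ_le one_le_of_slowPar)

theorem succ_pow_le {N : ℕ} (hN : 1 ≤ N) (s : ℕ) :
    ((N + 1 : ℕ) : ℝ) ^ s ≤ 2 ^ s * (N : ℝ) ^ s := by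
  rw [← mul_pow]
  exact pow_le_pow_left₀ (Nat.cast_nonneg _) (by exact_mod_cast (by omega : N + 1 ≤ 2 * N)) s

theorem pow_le_succ_pow (N s : ℕ) : (N : ℝ) ^ s ≤ ((N + 1 : ℕ) : ℝ) ^ s :=
  pow_le_pow_left₀ (Nat.cast_nonneg _) (Nat.cast_le.2 N.le_succ) s

theorem log_succ_le_two {N : ℕ} (hl : 1 ≤ Nat.log 2 N) :
    (Nat.log 2 (N + 1) : ℝ) ≤ 2 * Nat.log 2 N := by
  exact_mod_cast (log_succ_le N).trans (by omega)

theorem log_le_succ (N : ℕ) : (Nat.log 2 N : ℝ) ≤ Nat.log 2 (N + 1) :=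
  Nat.cast_le.2 (Nat.log_mono_right N.le_succ)

theorem eventually_one_le_log : ∀ᶠ N : ℕ in atTop, 1 ≤ Nat.log 2 N := by
  filter_upwards [eventually_ge_atTop 2] with N hN
  exact Nat.le_log_of_pow_le one_lt_two (by simpa using hN)

theorem eventually_log_ge (r : ℝ) : ∀ᶠ N : ℕ in atTop, r ≤ Nat.log 2 N := by
  filter_upwards [tendsto_slowPar.eventually_ge_atTop ⌈r⌉₊] with N hN
  exact (Nat.le_ceil r).trans (Nat.cast_le.2 (hN.trans (slowPar_le_log N)))

theorem mul_pow_le {k e N : ℕ} {s : ℕ} (hN : k ≤ N) (hs : s + 1 ≤ e) (hN1 : 1 ≤ N) :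
    k * N ^ s ≤ N ^ e :=
  (Nat.mul_le_mul_right _ hN).trans (by
    rw [← pow_succ']; exact Nat.pow_le_pow_right hN1 hs)

/-- `l m > l + m`: powers of `z` and derivatives. -/
def schemeThree (l m ν c : ℕ) (h : l + m + 1 ≤ l * m) : Scheme l m ν c where
  A N := (4 * ν + 1) * N ^ (m + l)
  L N := N ^ m
  S N := N ^ l
  S' N := N ^ l
  T N := N ^ (m + l)
  T' N := (c + 1) * (4 * ν + 2) * N ^ (m + l)
  V N := ((4 * ν + 1) + (c + 1) * (4 * ν + 2) + 1 : ℕ) * (N : ℝ) ^ (m + l)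
  U N := ((4 * ν + 1) + (c + 1) * (4 * ν + 2) + 1 : ℕ) * (N : ℝ) ^ (m + l) *
    ((Nat.log 2 N : ℝ) + 1)
  e := m + l + 1
  a := 2 * 2 ^ (m + l)
  a_nonneg := by positivity
  pos := by
    filter_upwards [eventually_ge_atTop 1] with N hN
    have hp : 1 ≤ N ^ (m + l) := Nat.one_le_pow _ _ hN
    exact ⟨Nat.mul_pos (Nat.succ_pos _) hp, Nat.one_le_pow _ _ hN, Nat.one_le_pow _ _ hN, hp,
      le_rfl, Nat.le_mul_of_pos_left _ (Nat.mul_pos (Nat.succ_pos _) (Nat.succ_pos _))⟩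
  count := Eventually.of_forall fun N => by
    rw [← pow_mul N l m, ← pow_mul N m l, Nat.mul_comm m l]
    exact Nat.mul_le_mul_right _ (Nat.mul_le_mul_right _ (Nat.le_succ _))
  zeros := by
    filter_upwards [eventually_ge_atTop 1] with N hN
    rw [← pow_mul N l m, ← pow_mul N m l, Nat.mul_comm m l]
    have h1 : N ^ l * N ^ m ≤ N ^ (m + l) * N ^ (l * m) := by
      rw [← pow_add, ← pow_add]
      exact Nat.pow_le_pow_right hN (by omega)
    calc c * ((4 * ν + 1) * N ^ (m + l) * N ^ (l * m) + N ^ l * N ^ m)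
        ≤ (c + 1) * ((4 * ν + 1) * N ^ (m + l) * N ^ (l * m) + N ^ (m + l) * N ^ (l * m)) := by
          gcongr
          omega
      _ = _ := by ring
  size := by
    filter_upwards [eventually_ge_atTop ((c + 1) * (4 * ν + 2)), eventually_ge_atTop 1]
      with N hN hN1
    have hA : 4 * ν + 1 ≤ (c + 1) * (4 * ν + 2) :=
      (Nat.le_succ _).trans (Nat.le_mul_of_pos_left _ (Nat.succ_pos _))
    exact ⟨mul_pow_le (hA.trans hN) le_rfl hN1, Nat.pow_le_pow_right hN1 (by omega),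
      Nat.pow_le_pow_right hN1 (by omega), mul_pow_le hN le_rfl hN1⟩
  deg := Eventually.of_forall fun N => by
    push_cast [pow_add]
    exact le_of_eq (by ring)
  ht := Eventually.of_forall fun N => by
    have h0 : (0 : ℝ) ≤ Nat.log 2 N := Nat.cast_nonneg _
    have hp : (0 : ℝ) ≤ (N : ℝ) ^ (m + l) := by positivity
    push_cast [pow_add] at hp ⊢
    linarith [mul_nonneg hp h0]
  units := by
    filter_upwards [eventually_ge_atTop 1, eventually_one_le_log] with N hN hl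
    set K : ℝ := (((4 * ν + 1) + (c + 1) * (4 * ν + 2) + 1 : ℕ) : ℝ)
    have hK : 1 ≤ K := Nat.one_le_cast.2 (Nat.succ_pos _)
    have hN1 : (1 : ℝ) ≤ N := by exact_mod_cast hN
    have hl0 : (0 : ℝ) ≤ Nat.log 2 N := Nat.cast_nonneg _
    have hp : (0 : ℝ) ≤ (N : ℝ) ^ (m + l) := by positivity
    have ha : (1 : ℝ) ≤ 2 * 2 ^ (m + l) :=
      one_le_mul_of_one_le_of_one_le one_le_two (one_le_pow₀ one_le_two)
    refine ⟨one_le_mul_of_one_le_of_one_le hK (one_le_pow₀ hN1),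
      le_mul_of_one_le_right (by positivity) (le_add_of_nonneg_left hl0), ?_, ?_, ?_, ?_⟩
    · exact (mul_le_mul_of_nonneg_left (pow_le_succ_pow N _) (by linarith)).trans
        (le_mul_of_one_le_left (by positivity) ha)
    · exact (mul_le_mul (mul_le_mul_of_nonneg_left (pow_le_succ_pow N _) (by linarith))
        (by linarith [log_le_succ N]) (by positivity) (by positivity)).trans
        (le_mul_of_one_le_left (by positivity) ha)
    · calc K * ((N + 1 : ℕ) : ℝ) ^ (m + l) ≤ K * (2 ^ (m + l) * (N : ℝ) ^ (m + l)) :=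
            mul_le_mul_of_nonneg_left (succ_pow_le hN _) (by linarith)
        _ ≤ 2 * (K * (2 ^ (m + l) * (N : ℝ) ^ (m + l))) :=
            le_mul_of_one_le_left (by positivity) one_le_two
        _ = _ := by ring
    · calc K * ((N + 1 : ℕ) : ℝ) ^ (m + l) * ((Nat.log 2 (N + 1) : ℝ) + 1)
          ≤ K * (2 ^ (m + l) * (N : ℝ) ^ (m + l)) * (2 * ((Nat.log 2 N : ℝ) + 1)) :=
            mul_le_mul (mul_le_mul_of_nonneg_left (succ_pow_le hN _) (by linarith))
              (by linarith [log_succ_le_two hl]) (by positivity) (by positivity)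
        _ = _ := by ring
  tendsto := by
    refine tendsto_atTop_mono' atTop ?_ tendsto_natCast_atTop_atTop
    filter_upwards [eventually_ge_atTop 1] with N hN
    have hN1 : (1 : ℝ) ≤ N := by exact_mod_cast hN
    calc (N : ℝ) ≤ (N : ℝ) ^ (m + l) := le_self_pow₀ hN1 (by
          rintro h0
          obtain ⟨rfl, rfl⟩ := Nat.add_eq_zero_iff.1 h0
          simp at h)
      _ ≤ ((4 * ν + 1) + (c + 1) * (4 * ν + 2) + 1 : ℕ) * (N : ℝ) ^ (m + l) :=
          le_mul_of_one_le_left (by positivity) (Nat.one_le_cast.2 (Nat.succ_pos _))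
      _ ≤ _ := le_mul_of_one_le_right (by positivity) (le_add_of_nonneg_left (Nat.cast_nonneg _))
  main C := by
    set K : ℝ := (((4 * ν + 1) + (c + 1) * (4 * ν + 2) + 1 : ℕ) : ℝ) with hKdef
    filter_upwards [eventually_one_le_log, eventually_ge_atTop 1,
      eventually_ge_atTop ⌈|C| * (2 * K ^ 2 + 1)⌉₊] with N hl hN hNC
    have hN1 : (1 : ℝ) ≤ N := by exact_mod_cast hN
    have hl1 : (1 : ℝ) ≤ Nat.log 2 N := by exact_mod_cast hl
    obtain ⟨r, hr⟩ := Nat.exists_eq_add_of_le h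
    have hCN : |C| * (2 * K ^ 2 + 1) ≤ N := (Nat.le_ceil _).trans (Nat.cast_le.2 hNC)
    set P : ℝ := (N : ℝ) ^ (m + l) with hP
    set G : ℝ := P * P * (N : ℝ) ^ r * Nat.log 2 N with hG
    have hr1 : (1 : ℝ) ≤ (N : ℝ) ^ r := one_le_pow₀ hN1
    have hPN : (N : ℝ) ≤ P := le_self_pow₀ hN1 (by
      rintro h0
      obtain ⟨rfl, rfl⟩ := Nat.add_eq_zero_iff.1 h0
      simp at h)
    have hP0 : 0 ≤ P := by positivity
    have hgain : ((N ^ (m + l) * (N ^ l) ^ m : ℕ) : ℝ) * Nat.log 2 N = N * G := by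
      rw [hG, hP, ← pow_mul, hr]
      push_cast
      ring
    have hPl : P * P ≤ P * P * (N : ℝ) ^ r := le_mul_of_one_le_right (by positivity) hr1
    have h1 : K * P * (K * P * ((Nat.log 2 N : ℝ) + 1)) ≤ 2 * K ^ 2 * G := by
      calc K * P * (K * P * ((Nat.log 2 N : ℝ) + 1))
          ≤ K * P * (K * P * (2 * Nat.log 2 N)) := by gcongr; linarith
        _ = 2 * K ^ 2 * (P * P * Nat.log 2 N) := by ring
        _ ≤ _ := mul_le_mul_of_nonneg_left (mul_le_mul_of_nonneg_right hPl (Nat.cast_nonneg _))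
              (by positivity)
    have h2 : ((N ^ m * N ^ l * N : ℕ) : ℝ) ≤ G := by
      calc ((N ^ m * N ^ l * N : ℕ) : ℝ) = P * N := by rw [hP]; push_cast; ring
        _ ≤ P * P := mul_le_mul_of_nonneg_left hPN hP0
        _ ≤ P * P * (N : ℝ) ^ r := hPl
        _ ≤ G := le_mul_of_one_le_right (by positivity) hl1
    rw [hgain]
    calc C * (K * P * (K * P * ((Nat.log 2 N : ℝ) + 1)) + ((N ^ m * N ^ l * N : ℕ) : ℝ))
        ≤ |C| * (2 * K ^ 2 * G + G) :=
          (mul_le_mul_of_nonneg_right (le_abs_self C) (by positivity)).trans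
            (mul_le_mul_of_nonneg_left (add_le_add h1 h2) (abs_nonneg C))
      _ = |C| * (2 * K ^ 2 + 1) * G := by ring
      _ ≤ _ := mul_le_mul_of_nonneg_right hCN (by positivity)

/-- `l m ≥ 2 (l + m)`: only exponentials. -/
def schemeOne (l m ν c : ℕ) (h : 2 * (l + m) ≤ l * m) (hl : 1 ≤ l) : Scheme l m ν c where
  A _ := 1
  L N := (4 * ν + 1) * N ^ m
  S N := N ^ l
  S' N := (c + 1) * ((4 * ν + 1) ^ l + (4 * ν + 1)) * N ^ l
  T _ := 1
  T' _ := 1
  V N := ((4 * ν + 1) * ((c + 1) * ((4 * ν + 1) ^ l + (4 * ν + 1))) + 4 : ℕ) * (N : ℝ) ^ (m + l)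
  U N := ((4 * ν + 1) * ((c + 1) * ((4 * ν + 1) ^ l + (4 * ν + 1))) + 4 : ℕ) * (N : ℝ) ^ (m + l)
  e := m + l + 1
  a := 2 ^ (m + l)
  a_nonneg := by positivity
  pos := by
    filter_upwards [eventually_ge_atTop 1] with N hN
    exact ⟨le_rfl, Nat.mul_pos (Nat.succ_pos _) (Nat.one_le_pow _ _ hN), Nat.one_le_pow _ _ hN,
      le_rfl, Nat.le_mul_of_pos_left _ (Nat.mul_pos (Nat.succ_pos _) (Nat.add_pos_right _
        (Nat.succ_pos _))), le_rfl⟩
  count := Eventually.of_forall fun N => by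
    rw [Nat.mul_one, Nat.one_mul, mul_pow, ← pow_mul N m l, ← pow_mul N l m, Nat.mul_comm m l]
    exact Nat.mul_le_mul_right _ ((Nat.le_succ _).trans (Nat.le_self_pow (by omega) _))
  zeros := by
    filter_upwards [eventually_ge_atTop 1] with N hN
    set k := 4 * ν + 1
    set k' := (c + 1) * (k ^ l + k) with hk'
    have hk1 : 1 ≤ k' := Nat.mul_pos (Nat.succ_pos _) (Nat.add_pos_right _ (Nat.succ_pos _))
    have hm : 2 ≤ m := by
      by_contra hm
      interval_cases m <;> omega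
    have hp : N ^ l * N ^ m ≤ N ^ (l * m) := by
      rw [← pow_add]; exact Nat.pow_le_pow_right hN (by omega)
    rw [Nat.one_mul, Nat.one_mul, mul_pow, mul_pow, ← pow_mul N m l, ← pow_mul N l m,
      Nat.mul_comm m l]
    calc c * (k ^ l * N ^ (l * m) + k' * N ^ l * (k * N ^ m))
        = c * (k ^ l * N ^ (l * m) + k' * k * (N ^ l * N ^ m)) := by ring
      _ ≤ (c + 1) * (k' * k ^ l * N ^ (l * m) + k' * k * N ^ (l * m)) := by
          gcongr
          · omega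
          · exact Nat.le_mul_of_pos_left _ hk1
      _ = k' ^ 2 * N ^ (l * m) := by rw [hk']; ring
      _ ≤ _ := Nat.mul_le_mul_right _ (Nat.pow_le_pow_right hk1 hm)
  size := by
    filter_upwards [eventually_ge_atTop ((c + 1) * ((4 * ν + 1) ^ l + (4 * ν + 1))),
      eventually_ge_atTop 1] with N hN hN1
    have hL : 4 * ν + 1 ≤ (c + 1) * ((4 * ν + 1) ^ l + (4 * ν + 1)) :=
      (Nat.le_add_left _ _).trans (Nat.le_mul_of_pos_left _ (Nat.succ_pos _))
    exact ⟨Nat.one_le_pow _ _ hN1, mul_pow_le (hL.trans hN) (by omega) hN1,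
      mul_pow_le hN (by omega) hN1, Nat.one_le_pow _ _ hN1⟩
  deg := by
    filter_upwards [eventually_ge_atTop 1] with N hN
    have hp : (1 : ℝ) ≤ (N : ℝ) ^ (m + l) := one_le_pow₀ (by exact_mod_cast hN)
    push_cast [pow_add] at hp ⊢
    linarith
  ht := by
    filter_upwards [eventually_ge_atTop 1] with N hN
    have hl0 : (Nat.log 2 N : ℝ) ≤ N := Nat.cast_le.2 (Nat.log_le_self 2 N)
    have hN1 : (1 : ℝ) ≤ N := by exact_mod_cast hN
    have hp : (N : ℝ) ≤ (N : ℝ) ^ (m + l) := le_self_pow₀ hN1 (by omega)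
    push_cast [pow_add] at hp ⊢
    linarith
  units := by
    filter_upwards [eventually_ge_atTop 1] with N hN
    set K : ℝ :=
      (((4 * ν + 1) * ((c + 1) * ((4 * ν + 1) ^ l + (4 * ν + 1))) + 4 : ℕ) : ℝ)
    have hK : 1 ≤ K := Nat.one_le_cast.2 (Nat.succ_pos _)
    have ha : (1 : ℝ) ≤ 2 ^ (m + l) := one_le_pow₀ one_le_two
    have hN1 : (1 : ℝ) ≤ N := by exact_mod_cast hN
    have h1 := (mul_le_mul_of_nonneg_left (pow_le_succ_pow N (m + l))
      (zero_le_one.trans hK)).trans (le_mul_of_one_le_left (by positivity) ha)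
    have h2 : K * ((N + 1 : ℕ) : ℝ) ^ (m + l) ≤ 2 ^ (m + l) * (K * (N : ℝ) ^ (m + l)) :=
      (mul_le_mul_of_nonneg_left (succ_pow_le hN _) (by linarith)).trans_eq (by ring)
    exact ⟨one_le_mul_of_one_le_of_one_le hK (one_le_pow₀ hN1), le_rfl, h1, h1, h2, h2⟩
  tendsto := by
    refine tendsto_atTop_mono' atTop ?_ tendsto_natCast_atTop_atTop
    filter_upwards [eventually_ge_atTop 1] with N hN
    exact (le_self_pow₀ (by exact_mod_cast hN) (by omega)).trans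
      (le_mul_of_one_le_left (by positivity) (Nat.one_le_cast.2 (Nat.succ_pos _)))
  main C := by
    set k := 4 * ν + 1
    set k' := (c + 1) * (k ^ l + k)
    set K : ℝ := ((k * k' + 4 : ℕ) : ℝ) with hK
    filter_upwards [eventually_log_ge (|C| * (K ^ 2 + (k * k' : ℕ))), eventually_ge_atTop 1]
      with N hl' hN
    have hN1 : (1 : ℝ) ≤ N := by exact_mod_cast hN
    set G : ℝ := (N : ℝ) ^ (l * m)
    have h1 : K * (N : ℝ) ^ (m + l) * (K * (N : ℝ) ^ (m + l)) ≤ K ^ 2 * G := by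
      calc K * (N : ℝ) ^ (m + l) * (K * (N : ℝ) ^ (m + l))
          = K ^ 2 * (N : ℝ) ^ (2 * (m + l)) := by ring
        _ ≤ _ := mul_le_mul_of_nonneg_left (pow_le_pow_right₀ hN1 (by omega)) (by positivity)
    have h2 : ((k * N ^ m * (k' * N ^ l) * N : ℕ) : ℝ) ≤ ((k * k' : ℕ) : ℝ) * G := by
      calc ((k * N ^ m * (k' * N ^ l) * N : ℕ) : ℝ)
          = ((k * k' : ℕ) : ℝ) * (N : ℝ) ^ (m + l + 1) := by push_cast; ring
        _ ≤ _ := mul_le_mul_of_nonneg_left (pow_le_pow_right₀ hN1 (by omega)) (by positivity)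
    calc C * (K * (N : ℝ) ^ (m + l) * (K * (N : ℝ) ^ (m + l)) +
          ((k * N ^ m * (k' * N ^ l) * N : ℕ) : ℝ))
        ≤ |C| * (K ^ 2 * G + ((k * k' : ℕ) : ℝ) * G) :=
          (mul_le_mul_of_nonneg_right (le_abs_self C) (by positivity)).trans
            (mul_le_mul_of_nonneg_left (add_le_add h1 h2) (abs_nonneg C))
      _ = |C| * (K ^ 2 + ((k * k' : ℕ) : ℝ)) * G := by ring
      _ ≤ (Nat.log 2 N : ℝ) * G := mul_le_mul_of_nonneg_right hl' (by positivity)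
      _ = _ := by simp only [G]; push_cast; rw [← pow_mul]; ring

/-- The order of the zeros when `l m ≥ l + 2 m`. -/
def ordTwo (l m ν : ℕ) (N : ℕ) : ℕ := N ^ (m + l) / ((4 * ν + 1) * slowPar N ^ m)

theorem ordTwo_facts {r m ν N : ℕ} (hk : 1 ≤ slowPar N) (hm : 2 ≤ m)
    (hN : 2 * (4 * ν + 1) ≤ N) (hkm : slowPar N ^ m ≤ N ^ m) :
    1 ≤ ordTwo (r + 1) m ν N ∧
      4 * ν * ordTwo (r + 1) m ν N * (slowPar N * N ^ r) ^ m ≤ (N ^ (m + 1)) ^ (r + 1) ∧
      (N ^ (m + 1)) ^ (r + 1) ≤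
        2 * (4 * ν + 1) * (ordTwo (r + 1) m ν N * (slowPar N * N ^ r) ^ m) ∧
      (ordTwo (r + 1) m ν N : ℝ) * (slowPar N : ℝ) ^ 2 ≤ (N : ℝ) ^ (m + (r + 1)) := by
  obtain ⟨hN1, -⟩ := one_le_of_slowPar hk
  set T := ordTwo (r + 1) m ν N with hT
  set K := 4 * ν + 1
  set d := K * slowPar N ^ m with hd
  have hd0 : 0 < d := Nat.mul_pos (Nat.succ_pos _) (Nat.pow_pos hk)
  have h2d : 2 * d ≤ N ^ (m + (r + 1)) := by
    calc 2 * d = 2 * K * slowPar N ^ m := by rw [hd]; ring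
      _ ≤ N * N ^ m := Nat.mul_le_mul hN hkm
      _ = N ^ (m + 1) := by ring
      _ ≤ _ := Nat.pow_le_pow_right hN1 (by omega)
  have hle : T * d ≤ N ^ (m + (r + 1)) := Nat.div_mul_le_self _ _
  have hlt : N ^ (m + (r + 1)) < T * d + d := Nat.lt_div_mul_add hd0
  refine ⟨Nat.div_pos ((Nat.le_mul_of_pos_left _ two_pos).trans h2d) hd0, ?_, ?_, ?_⟩
  · calc 4 * ν * T * (slowPar N * N ^ r) ^ m ≤ K * T * (slowPar N * N ^ r) ^ m := by
          gcongr; omega
      _ = T * d * N ^ (r * m) := by rw [hd, mul_pow, ← pow_mul]; ring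
      _ ≤ N ^ (m + (r + 1)) * N ^ (r * m) := Nat.mul_le_mul_right _ hle
      _ = _ := by ring
  · calc (N ^ (m + 1)) ^ (r + 1) = N ^ (m + (r + 1)) * N ^ (r * m) := by ring
      _ ≤ 2 * (T * d) * N ^ (r * m) := Nat.mul_le_mul_right _ (by omega)
      _ = _ := by rw [hd, mul_pow, ← pow_mul]; ring
  · have h : T * slowPar N ^ 2 ≤ N ^ (m + (r + 1)) := by
      refine le_trans (Nat.mul_le_mul_left T ?_) hle
      exact (Nat.pow_le_pow_right hk hm).trans (Nat.le_mul_of_pos_left _ (Nat.succ_pos _))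
    exact_mod_cast h

/-- `(r + 1) m ≥ r + 1 + 2 m`: exponentials and derivatives. -/
def schemeTwo (r m ν c : ℕ) (hm : 2 ≤ m) (h : r + 1 + 2 * m ≤ (r + 1) * m) :
    Scheme (r + 1) m ν c where
  A _ := 1
  L N := N ^ (m + 1)
  S N := slowPar N * N ^ r
  S' N := slowPar N * N ^ r
  T N := ordTwo (r + 1) m ν N
  T' N := (c + 1) * (4 * (4 * ν + 1)) * ordTwo (r + 1) m ν N
  V N := ((c + 1) * (4 * (4 * ν + 1)) + 4 : ℕ) * ((N : ℝ) ^ (m + (r + 1)) * slowPar N)
  U N := (2 * ((c + 1) * (4 * (4 * ν + 1)) + 4) : ℕ) * ((N : ℝ) ^ (m + (r + 1)) *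
    ((slowPar N : ℝ) + (Nat.log 2 N : ℝ) / (slowPar N : ℝ) ^ 2))
  e := m + r + 2
  a := 8 * 2 ^ (m + (r + 1))
  a_nonneg := by positivity
  pos := by
    filter_upwards [tendsto_slowPar.eventually_ge_atTop 1, eventually_ge_atTop (2 * (4 * ν + 1))]
      with N hk hN
    obtain ⟨hN1, -⟩ := one_le_of_slowPar hk
    have hT := (ordTwo_facts (r := r) hk hm hN
      (Nat.pow_le_pow_left ((slowPar_le_log N).trans (Nat.log_le_self 2 N)) m)).1
    exact ⟨le_rfl, Nat.one_le_pow _ _ hN1, Nat.mul_pos hk (Nat.one_le_pow _ _ hN1), hT, le_rfl,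
      Nat.le_mul_of_pos_left _ (Nat.mul_pos (Nat.succ_pos _) (Nat.mul_pos four_pos
        (Nat.succ_pos _)))⟩
  count := by
    filter_upwards [tendsto_slowPar.eventually_ge_atTop 1, eventually_ge_atTop (2 * (4 * ν + 1))]
      with N hk hN
    rw [Nat.one_mul]
    exact (ordTwo_facts hk hm hN
      (Nat.pow_le_pow_left ((slowPar_le_log N).trans (Nat.log_le_self 2 N)) m)).2.1
  zeros := by
    filter_upwards [tendsto_slowPar.eventually_ge_atTop 1, eventually_ge_atTop (2 * (4 * ν + 1))]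
      with N hk hN
    obtain ⟨hN1, -⟩ := one_le_of_slowPar hk
    have hkN : slowPar N ≤ N := (slowPar_le_log N).trans (Nat.log_le_self 2 N)
    have h3 := (ordTwo_facts (r := r) (ν := ν) hk hm hN (Nat.pow_le_pow_left hkN m)).2.2.1
    set n := (N ^ (m + 1)) ^ (r + 1) with hn
    have hSL : slowPar N * N ^ r * N ^ (m + 1) ≤ n := by
      calc slowPar N * N ^ r * N ^ (m + 1) ≤ N * N ^ r * N ^ (m + 1) := by gcongr
        _ = N ^ (m + r + 2) := by ring
        _ ≤ N ^ ((m + 1) * (r + 1)) := Nat.pow_le_pow_right hN1 (by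
            rw [Nat.add_one_mul, Nat.mul_comm m (r + 1)]
            omega)
        _ = n := by rw [hn, pow_mul]
    calc c * (1 * n + slowPar N * N ^ r * N ^ (m + 1)) ≤ (c + 1) * (2 * n) :=
          Nat.mul_le_mul (Nat.le_succ c) (by omega)
      _ ≤ (c + 1) * (2 * (2 * (4 * ν + 1) *
          (ordTwo (r + 1) m ν N * (slowPar N * N ^ r) ^ m))) := by gcongr
      _ = _ := by ring
  size := by
    filter_upwards [eventually_ge_atTop 1, eventually_ge_atTop ((c + 1) * (4 * (4 * ν + 1)))]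
      with N hN1 hN
    have hkN : slowPar N ≤ N := (slowPar_le_log N).trans (Nat.log_le_self 2 N)
    refine ⟨Nat.one_le_pow _ _ hN1, Nat.pow_le_pow_right hN1 (by omega),
      mul_pow_le hkN (by omega) hN1, ?_⟩
    exact (Nat.mul_le_mul_left _ (Nat.div_le_self _ _)).trans (mul_pow_le hN (by omega) hN1)
  deg := by
    filter_upwards [tendsto_slowPar.eventually_ge_atTop 1] with N hk
    have hk1 : (1 : ℝ) ≤ slowPar N := by exact_mod_cast hk
    have hN1 : (1 : ℝ) ≤ N := by exact_mod_cast (one_le_of_slowPar hk).1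
    set P : ℝ := (N : ℝ) ^ (m + (r + 1)) with hP
    have hP1 : 1 ≤ P * slowPar N := one_le_mul_of_one_le_of_one_le (one_le_pow₀ hN1) hk1
    have hP0 : 0 ≤ P := by positivity
    have hT : (ordTwo (r + 1) m ν N : ℝ) ≤ P * slowPar N := by
      refine le_trans ?_ (le_mul_of_one_le_right hP0 hk1)
      rw [hP]
      exact_mod_cast Nat.div_le_self _ _
    have hLS : ((N ^ (m + 1) * (slowPar N * N ^ r) : ℕ) : ℝ) = P * slowPar N := by
      rw [hP]; push_cast; ring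
    push_cast at hLS ⊢
    linarith [mul_le_mul_of_nonneg_left hT
      (show (0 : ℝ) ≤ ((c : ℝ) + 1) * (4 * (4 * (ν : ℝ) + 1)) by positivity)]
  ht := by
    filter_upwards [tendsto_slowPar.eventually_ge_atTop 1, eventually_ge_atTop (2 * (4 * ν + 1))]
      with N hk hN
    obtain ⟨hN1, hl⟩ := one_le_of_slowPar hk
    have hkN : slowPar N ≤ N := (slowPar_le_log N).trans (Nat.log_le_self 2 N)
    have hT := (ordTwo_facts (r := r) (ν := ν) hk hm hN (Nat.pow_le_pow_left hkN m)).2.2.2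
    have hk1 : (1 : ℝ) ≤ slowPar N := by exact_mod_cast hk
    have hl1 : (1 : ℝ) ≤ Nat.log 2 N := by exact_mod_cast hl
    set P : ℝ := (N : ℝ) ^ (m + (r + 1)) with hP
    set ℓ : ℝ := (Nat.log 2 N : ℝ) with hℓ
    set κ : ℝ := (slowPar N : ℝ) with hκ
    have hk2 : κ ^ 2 ≤ P := by
      rw [hκ, hP]
      exact_mod_cast (Nat.pow_le_pow_left hkN 2).trans (Nat.pow_le_pow_right hN1 (by omega))
    have hc0 : (0 : ℝ) ≤ ((c : ℝ) + 1) * (4 * (4 * (ν : ℝ) + 1)) := by positivity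
    set K : ℝ := ((c : ℝ) + 1) * (4 * (4 * (ν : ℝ) + 1)) with hK
    have hAT : (1 + K * (ordTwo (r + 1) m ν N : ℝ)) * (ℓ + 1) ≤
        2 * (1 + K) * (P * (ℓ / κ ^ 2)) := by
      have h1 : (1 + K * (ordTwo (r + 1) m ν N : ℝ)) * κ ^ 2 ≤ (1 + K) * P := by
        linarith [mul_le_mul_of_nonneg_left hT hc0]
      rw [mul_div_assoc', mul_div_assoc', le_div_iff₀ (by positivity)]
      calc (1 + K * (ordTwo (r + 1) m ν N : ℝ)) * (ℓ + 1) * κ ^ 2
          = (1 + K * (ordTwo (r + 1) m ν N : ℝ)) * κ ^ 2 * (ℓ + 1) := by ring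
        _ ≤ (1 + K) * P * (2 * ℓ) :=
            mul_le_mul h1 (by linarith) (by positivity) (by positivity)
        _ = _ := by ring
    have hLS : ((N ^ (m + 1) * (slowPar N * N ^ r) : ℕ) : ℝ) = P * κ := by
      rw [hP, hκ]; push_cast; ring
    have hP0 : 0 ≤ P * κ := by positivity
    have hQ : 0 ≤ P * (ℓ / κ ^ 2) := by positivity
    push_cast at hLS ⊢
    rw [← hK, mul_add P]
    nlinarith [mul_nonneg hc0 hP0]
  units := by
    filter_upwards [tendsto_slowPar.eventually_ge_atTop 1] with N hk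
    obtain ⟨hN, hl⟩ := one_le_of_slowPar hk
    set K₁ : ℝ := (((c + 1) * (4 * (4 * ν + 1)) + 4 : ℕ) : ℝ) with hK₁
    set K₂ : ℝ := ((2 * ((c + 1) * (4 * (4 * ν + 1)) + 4) : ℕ) : ℝ) with hK₂
    have hK : 1 ≤ K₁ := Nat.one_le_cast.2 (Nat.succ_pos _)
    have h12 : K₁ ≤ K₂ := Nat.cast_le.2 (Nat.le_mul_of_pos_left _ two_pos)
    set s := m + (r + 1)
    set κ : ℝ := (slowPar N : ℝ) with hκ
    set κ' : ℝ := (slowPar (N + 1) : ℝ) with hκ'
    set ℓ : ℝ := (Nat.log 2 N : ℝ)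
    set ℓ' : ℝ := (Nat.log 2 (N + 1) : ℝ)
    have hk1 : 1 ≤ κ := by rw [hκ]; exact_mod_cast hk
    have hkk : κ ≤ κ' := by rw [hκ, hκ']; exact_mod_cast slowPar_le_succ N
    have hkk' : κ' ≤ 2 * κ := by
      rw [hκ, hκ']; exact_mod_cast (slowPar_succ_le N).trans (by omega)
    have hll : ℓ ≤ ℓ' := log_le_succ N
    have hll' : ℓ' ≤ 2 * ℓ := log_succ_le_two hl
    have hk0 : 0 < κ := by linarith
    have hk0' : 0 < κ' := by linarith
    have hℓ0 : 0 ≤ ℓ := Nat.cast_nonneg _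
    have hN1 : (1 : ℝ) ≤ N := by exact_mod_cast hN
    have hq : ℓ / κ ^ 2 ≤ 4 * (ℓ' / κ' ^ 2) := by
      rw [← mul_div_assoc, div_le_div_iff₀ (by positivity) (by positivity)]
      calc ℓ * κ' ^ 2 ≤ ℓ' * (2 * κ) ^ 2 :=
            mul_le_mul hll (pow_le_pow_left₀ hk0'.le hkk' 2) (sq_nonneg _) (by linarith)
        _ = _ := by ring
    have hq' : ℓ' / κ' ^ 2 ≤ 2 * (ℓ / κ ^ 2) := by
      rw [← mul_div_assoc]
      exact div_le_div₀ (by positivity) hll' (by positivity) (pow_le_pow_left₀ hk0.le hkk 2)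
    have hp := succ_pow_le hN s
    have hp' := pow_le_succ_pow N s
    have ha : (8 : ℝ) ≤ 8 * 2 ^ s := le_mul_of_one_le_right (by norm_num) (one_le_pow₀ one_le_two)
    have hQ : 0 ≤ ℓ' / κ' ^ 2 := by positivity
    refine ⟨one_le_mul_of_one_le_of_one_le hK (one_le_mul_of_one_le_of_one_le (one_le_pow₀ hN1)
      hk1), mul_le_mul h12 (mul_le_mul_of_nonneg_left (le_add_of_nonneg_right (by positivity))
        (by positivity)) (by positivity) (by positivity), ?_, ?_, ?_, ?_⟩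
    · calc K₁ * ((N : ℝ) ^ s * κ) ≤ K₁ * (((N + 1 : ℕ) : ℝ) ^ s * κ') := by gcongr
        _ ≤ _ := le_mul_of_one_le_left (by positivity) (by linarith)
    · calc K₂ * ((N : ℝ) ^ s * (κ + ℓ / κ ^ 2))
          ≤ K₂ * (((N + 1 : ℕ) : ℝ) ^ s * (4 * (κ' + ℓ' / κ' ^ 2))) := by gcongr; linarith
        _ = 4 * (K₂ * (((N + 1 : ℕ) : ℝ) ^ s * (κ' + ℓ' / κ' ^ 2))) := by ring
        _ ≤ _ := mul_le_mul_of_nonneg_right (by linarith) (by positivity)
    · calc K₁ * (((N + 1 : ℕ) : ℝ) ^ s * κ') ≤ K₁ * (2 ^ s * (N : ℝ) ^ s * (2 * κ)) := by gcongr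
        _ = 2 * 2 ^ s * (K₁ * ((N : ℝ) ^ s * κ)) := by ring
        _ ≤ _ := mul_le_mul_of_nonneg_right
              (mul_le_mul_of_nonneg_right (by norm_num) (by positivity)) (by positivity)
    · calc K₂ * (((N + 1 : ℕ) : ℝ) ^ s * (κ' + ℓ' / κ' ^ 2))
          ≤ K₂ * (2 ^ s * (N : ℝ) ^ s * (2 * (κ + ℓ / κ ^ 2))) := by gcongr; linarith
        _ = 2 * 2 ^ s * (K₂ * ((N : ℝ) ^ s * (κ + ℓ / κ ^ 2))) := by ring
        _ ≤ _ := mul_le_mul_of_nonneg_right
              (mul_le_mul_of_nonneg_right (by norm_num) (by positivity)) (by positivity)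
  tendsto := by
    refine tendsto_atTop_mono' atTop ?_ tendsto_natCast_atTop_atTop
    filter_upwards [tendsto_slowPar.eventually_ge_atTop 1] with N hk
    have hN1 : (1 : ℝ) ≤ N := by exact_mod_cast (one_le_of_slowPar hk).1
    have hk1 : (1 : ℝ) ≤ slowPar N := by exact_mod_cast hk
    exact (le_self_pow₀ hN1 (by omega)).trans ((le_mul_of_one_le_right (by positivity)
      (hk1.trans (le_add_of_nonneg_right (by positivity)))).trans
        (le_mul_of_one_le_left (by positivity)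
          (Nat.one_le_cast.2 (Nat.mul_pos two_pos (Nat.succ_pos _)))))
  main C := by
    set K₀ : ℝ := (((c + 1) * (4 * (4 * ν + 1)) + 4 : ℕ) : ℝ) with hK₀
    filter_upwards [tendsto_slowPar.eventually_ge_atTop
        (max 1 ⌈|C| * (4 * K₀ ^ 2 + 1) * (2 * (4 * ν + 1))⌉₊),
      eventually_ge_atTop (2 * (4 * ν + 1))] with N hk' hN
    have hk : 1 ≤ slowPar N := (le_max_left _ _).trans hk'
    obtain ⟨hN1, hl⟩ := one_le_of_slowPar hk
    have hkN : slowPar N ≤ N := (slowPar_le_log N).trans (Nat.log_le_self 2 N)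
    have h3 := (ordTwo_facts (r := r) (ν := ν) hk hm hN (Nat.pow_le_pow_left hkN m)).2.2.1
    set κ : ℝ := (slowPar N : ℝ) with hκ
    set ℓ : ℝ := (Nat.log 2 N : ℝ) with hℓ
    have hk1 : 1 ≤ κ := by rw [hκ]; exact_mod_cast hk
    have hk4 : κ ^ 4 ≤ ℓ := by rw [hκ, hℓ]; exact_mod_cast slowPar_pow_four_le N
    have hN1' : (1 : ℝ) ≤ N := by exact_mod_cast hN1
    set G : ℝ := ((ordTwo (r + 1) m ν N * (slowPar N * N ^ r) ^ m : ℕ) : ℝ)
    set n : ℝ := (N : ℝ) ^ ((m + 1) * (r + 1)) with hn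
    have hG : n ≤ 2 * (4 * (ν : ℝ) + 1) * G := by
      have h4 : (((N ^ (m + 1)) ^ (r + 1) : ℕ) : ℝ) ≤ ((2 * (4 * ν + 1) *
          (ordTwo (r + 1) m ν N * (slowPar N * N ^ r) ^ m) : ℕ) : ℝ) := Nat.cast_le.2 h3
      rw [hn, pow_mul]
      calc ((N : ℝ) ^ (m + 1)) ^ (r + 1)
          = (((N ^ (m + 1)) ^ (r + 1) : ℕ) : ℝ) := by push_cast; rfl
        _ ≤ _ := h4
        _ = _ := by simp only [G]; push_cast; ring
    have hexp : 2 * (m + (r + 1)) ≤ (m + 1) * (r + 1) := by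
      rw [Nat.add_one_mul m, Nat.mul_comm m (r + 1)]
      omega
    have hk3 : κ ^ 2 ≤ ℓ / κ := by
      rw [le_div_iff₀ (by linarith), ← pow_succ]
      exact (pow_le_pow_right₀ hk1 (by norm_num)).trans hk4
    have hκℓ : κ ≤ ℓ / κ := le_trans (le_self_pow₀ hk1 two_ne_zero) hk3
    have h1 : K₀ * ((N : ℝ) ^ (m + (r + 1)) * κ) * ((2 * ((c + 1) * (4 * (4 * ν + 1)) + 4) : ℕ) *
        ((N : ℝ) ^ (m + (r + 1)) * (κ + ℓ / κ ^ 2))) ≤ 4 * K₀ ^ 2 * (n * (ℓ / κ)) := by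
      have hK2 : ((2 * ((c + 1) * (4 * (4 * ν + 1)) + 4) : ℕ) : ℝ) = 2 * K₀ := by
        rw [hK₀, Nat.cast_mul, Nat.cast_ofNat]
      rw [hK2]
      have hκ0 : κ ≠ 0 := by linarith
      calc K₀ * ((N : ℝ) ^ (m + (r + 1)) * κ) *
            (2 * K₀ * ((N : ℝ) ^ (m + (r + 1)) * (κ + ℓ / κ ^ 2)))
          = 2 * K₀ ^ 2 * ((N : ℝ) ^ (2 * (m + (r + 1))) * (κ ^ 2 + ℓ / κ)) := by
            field_simp
            ring
        _ ≤ 2 * K₀ ^ 2 * (n * (2 * (ℓ / κ))) := by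
            gcongr
            · exact pow_le_pow_right₀ hN1' hexp
            · linarith
        _ = _ := by ring
    have h2 : ((N ^ (m + 1) * (slowPar N * N ^ r) * N : ℕ) : ℝ) ≤ n * (ℓ / κ) := by
      calc ((N ^ (m + 1) * (slowPar N * N ^ r) * N : ℕ) : ℝ)
          = (N : ℝ) ^ (m + r + 2) * κ := by rw [hκ]; push_cast; ring
        _ ≤ _ := mul_le_mul (pow_le_pow_right₀ hN1' (by omega)) hκℓ (by linarith) (by positivity)
    calc C * (K₀ * ((N : ℝ) ^ (m + (r + 1)) * κ) *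
          ((2 * ((c + 1) * (4 * (4 * ν + 1)) + 4) : ℕ) * ((N : ℝ) ^ (m + (r + 1)) *
            (κ + ℓ / κ ^ 2))) + ((N ^ (m + 1) * (slowPar N * N ^ r) * N : ℕ) : ℝ))
        ≤ |C| * (4 * K₀ ^ 2 * (n * (ℓ / κ)) + n * (ℓ / κ)) :=
          (mul_le_mul_of_nonneg_right (le_abs_self C) (by positivity)).trans
            (mul_le_mul_of_nonneg_left (add_le_add h1 h2) (abs_nonneg C))
      _ ≤ |C| * (4 * K₀ ^ 2 + 1) * (2 * (4 * (ν : ℝ) + 1) * G * (ℓ / κ)) := by
          rw [show |C| * (4 * K₀ ^ 2 * (n * (ℓ / κ)) + n * (ℓ / κ)) =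
            |C| * (4 * K₀ ^ 2 + 1) * (n * (ℓ / κ)) by ring]
          gcongr
      _ = |C| * (4 * K₀ ^ 2 + 1) * (2 * (4 * (ν : ℝ) + 1)) * (ℓ / κ) * G := by ring
      _ ≤ κ * (ℓ / κ) * G := by
          gcongr
          exact (Nat.le_ceil _).trans (Nat.cast_le.2 ((le_max_right _ _).trans hk'))
      _ = _ := by rw [mul_div_cancel₀ _ (by linarith : κ ≠ 0)]; ring

end FA.SmallTrdeg

end
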