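import Fermat.Agent.SmallTrdeg.Engine
import Fermat.Agent.SmallTrdeg.Schemes
import Fermat.Agent.BrownawellWaldschmidt.Main
import Fermat.Agent.Transcendence.SixExponentials
import Fermat.Agent.Transcendence.GelfondSchneider
import Mathlib.Algebra.Polynomial.Basis

/-!
# Small transcendence degrees

The theorems of Waldschmidt and Tijdeman and their consequences.
-/

set_option autoImplicit false

noncomputable section

open Finset Polynomial
open scoped IntermediateField

namespace FA.SmallTrdeg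

open FA.BrownawellWaldschmidt (algebraicIndependent_pair isIntegral_self)

variable {l m : ℕ}

/-- The exponentials. -/
def expValues (x : Fin l → ℂ) (y : Fin m → ℂ) (p : Fin l × Fin m) : ℂ :=
  Complex.exp (x p.1 * y p.2)

theorem exists_pair {ι : Type*} (v : ι → ℂ) (h1 : ∃ i, Transcendental ℚ (v i))
    (h : ∀ θ : ℂ, Transcendental ℚ θ → (∀ i, IsIntegral ℚ⟮θ⟯ (v i)) → False) :
    ∃ i j, AlgebraicIndependent ℚ ![v i, v j] := by
  obtain ⟨i, hi⟩ := h1
  by_contra hall
  refine h (v i) hi fun j => IsAlgebraic.isIntegral ?_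
  by_contra hj
  exact hall ⟨i, j, algebraicIndependent_pair hi hj⟩

theorem exists_transcendental_of_two {x : Fin l → ℂ} {y : Fin m → ℂ}
    (hx : LinearIndependent ℚ x) (hy : LinearIndependent ℚ y) (hl : 2 ≤ l) (hm : 0 < m) :
    ∃ p : Fin l ⊕ (Fin l × Fin m), Transcendental ℚ (Sum.elim x (expValues x y) p) := by
  by_contra hall
  simp only [Transcendental, not_exists, not_not] at hall
  set i₀ : Fin l := ⟨0, by omega⟩
  set i₁ : Fin l := ⟨1, by omega⟩
  set j₀ : Fin m := ⟨0, hm⟩
  have h0 := hx.ne_zero i₀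
  have hirr : ∀ r : ℚ, x i₁ / x i₀ ≠ r := fun r hr => by
    have hp : LinearIndependent ℚ ![x i₀, x i₁] := by
      have h := hx.comp ![i₀, i₁] fun a b hab => by
        fin_cases a <;> fin_cases b <;> simp [i₀, i₁, Fin.ext_iff] at hab <;> rfl
      convert h using 1
      ext a
      fin_cases a <;> rfl
    have h1 := (LinearIndependent.pair_iff.1 hp r (-1) (by
      rw [Rat.smul_def, neg_smul, one_smul, ← hr, div_mul_cancel₀ _ h0, add_neg_cancel])).2
    norm_num at h1
  have hb : IsAlgebraic ℚ (x i₁ / x i₀) := by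
    rw [div_eq_mul_inv]
    exact (hall (Sum.inl i₁)).mul (hall (Sum.inl i₀)).inv
  refine FA.GelfondSchneider.transcendental_exp_mul (mul_ne_zero h0 (hy.ne_zero j₀)) hb hirr
    (hall (Sum.inr (i₀, j₀))) ?_
  rw [← mul_assoc, div_mul_cancel₀ _ h0]
  exact hall (Sum.inr (i₁, j₀))

theorem exists_transcendental_expValues {x : Fin l → ℂ} {y : Fin m → ℂ}
    (hx : LinearIndependent ℚ x) (hy : LinearIndependent ℚ y) (hl : 2 ≤ l) (hm : 3 ≤ m) :
    ∃ p, Transcendental ℚ (expValues x y p) := by
  obtain ⟨i, j, h⟩ := FA.SixExponentials.exists_transcendental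
    (hx.comp _ (Fin.castLE_injective hl)) (hy.comp _ (Fin.castLE_injective hm))
  exact ⟨(_, _), h⟩

/-- **Waldschmidt, Tijdeman**: `l m ≥ 2 (l + m)`. -/
theorem small_trdeg_exp {x : Fin l → ℂ} {y : Fin m → ℂ} (hx : LinearIndependent ℚ x)
    (hy : LinearIndependent ℚ y) (hl : 0 < l) (h : 2 * (l + m) ≤ l * m) :
    ∃ p q, AlgebraicIndependent ℚ ![expValues x y p, expValues x y q] := by
  refine exists_pair _ (exists_transcendental_expValues hx hy ?_ ?_) fun θ hθ hint => ?_
  · by_contra hl2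
    interval_cases l
    omega
  · by_contra hm3
    interval_cases m <;> omega
  exact false_of_schemes hθ hx hy (fun i j => hint (i, j))
    (fun ν c _ => schemeOne l m ν c h hl) (Or.inl fun _ _ _ _ => le_rfl)
    (Or.inl fun _ _ _ _ => le_rfl)

/-- **Waldschmidt, Tijdeman**: `l m ≥ l + 2 m`. -/
theorem small_trdeg_exp_left {x : Fin l → ℂ} {y : Fin m → ℂ} (hx : LinearIndependent ℚ x)
    (hy : LinearIndependent ℚ y) (hl : 0 < l) (h : l + 2 * m ≤ l * m) :
    ∃ p q, AlgebraicIndependent ℚ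
      ![Sum.elim x (expValues x y) p, Sum.elim x (expValues x y) q] := by
  obtain ⟨r, rfl⟩ := Nat.exists_eq_succ_of_ne_zero hl.ne'
  have hm : 2 ≤ m := by
    by_contra hm
    interval_cases m <;> omega
  have hl2 : 2 ≤ r + 1 := by
    by_contra hr
    obtain rfl : r = 0 := by omega
    omega
  refine exists_pair _ (exists_transcendental_of_two hx hy hl2 (by omega)) fun θ hθ hint => ?_
  exact false_of_schemes hθ hx hy (fun i j => hint (Sum.inr (i, j)))
    (fun ν c _ => schemeTwo r m ν c hm h) (Or.inr fun i => hint (Sum.inl i))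
    (Or.inl fun _ _ _ _ => le_rfl)

/-- **Waldschmidt, Tijdeman**: `l m > l + m`. -/
theorem small_trdeg_exp_both {x : Fin l → ℂ} {y : Fin m → ℂ} (hx : LinearIndependent ℚ x)
    (hy : LinearIndependent ℚ y) (h : l + m < l * m) :
    ∃ p q, AlgebraicIndependent ℚ ![Sum.elim (Sum.elim x y) (expValues x y) p,
      Sum.elim (Sum.elim x y) (expValues x y) q] := by
  have hl : 2 ≤ l := by
    by_contra hl
    interval_cases l <;> omega
  have hm : 0 < m := Nat.pos_of_ne_zero (by rintro rfl; simp at h)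
  obtain ⟨p, hp⟩ := exists_transcendental_of_two hx hy hl hm
  refine exists_pair _ ⟨Sum.elim (Sum.inl ∘ Sum.inl) Sum.inr p, by cases p <;> exact hp⟩
    fun θ hθ hint => ?_
  exact false_of_schemes hθ hx hy (fun i j => hint (Sum.inr (i, j)))
    (fun ν c _ => schemeThree l m ν c h) (Or.inr fun i => hint (Sum.inl (Sum.inl i)))
    (Or.inr fun j => hint (Sum.inl (Sum.inr j)))

theorem isIntegral_exp_rat_smul {K : Type*} [Field K] [Algebra K ℂ] (r : ℚ) {z : ℂ}
    (hz : IsIntegral K (Complex.exp z)) : IsIntegral K (Complex.exp (r • z)) := by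
  refine IsIntegral.of_pow r.den_pos ?_
  have he : ((r.den : ℕ) : ℂ) * (r • z) = (r.num : ℂ) * z := by
    have h1 : (r : ℂ) * (r.den : ℂ) = (r.num : ℂ) := by exact_mod_cast Rat.mul_den_eq_num r
    rw [Rat.smul_def, ← h1]
    ring
  rw [← Complex.exp_nat_mul, he, Complex.exp_int_mul]
  obtain ⟨k, hk | hk⟩ := r.num.eq_nat_or_neg <;> rw [hk]
  · simpa using hz.pow k
  · simpa using (hz.pow k).inv

theorem isIntegral_exp_pow_mul {K : Type*} [Field K] [Algebra K ℂ] {β L : ℂ}
    (hβ : IsIntegral ℚ β)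
    (h : ∀ k < (minpoly ℚ β).natDegree, IsIntegral K (Complex.exp (β ^ k * L))) (n : ℕ) :
    IsIntegral K (Complex.exp (β ^ n * L)) := by
  have hn : β ^ n = ∑ k ∈ range (minpoly ℚ β).natDegree,
      (X ^ n %ₘ minpoly ℚ β).coeff k • β ^ k := by
    rw [← aeval_eq_sum_range' (natDegree_modByMonic_lt _ (minpoly.monic hβ) (minpoly.ne_one ℚ β)),
      minpoly.aeval_modByMonic_minpoly, map_pow, aeval_X]
  rw [hn, sum_mul, Complex.exp_sum]
  refine IsIntegral.prod _ fun k hk => ?_
  rw [smul_mul_assoc]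
  exact isIntegral_exp_rat_smul _ (h k (mem_range.1 hk))

/-- **Powers of degree `d ≥ 3`**: `exp (β L)` is independent of one `exp (β ^ j L)`, `2 ≤ j < d`. -/
theorem exists_pow_algebraicIndependent {L β : ℂ} (hL : L ≠ 0)
    (hα : IsAlgebraic ℚ (Complex.exp L)) (hd : 3 ≤ (minpoly ℚ β).natDegree) :
    ∃ j, 2 ≤ j ∧ j < (minpoly ℚ β).natDegree ∧
      AlgebraicIndependent ℚ ![Complex.exp (β * L), Complex.exp (β ^ j * L)] := by
  set d := (minpoly ℚ β).natDegree with hdd
  have hβ : IsIntegral ℚ β := by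
    by_contra h
    rw [hdd, minpoly.eq_zero h, natDegree_zero] at hd
    omega
  have hirr : ∀ r : ℚ, β ≠ r := fun r h => by
    rw [hdd, h, show ((r : ℂ)) = algebraMap ℚ ℂ r from (eq_ratCast _ r).symm,
      minpoly.eq_X_sub_C, natDegree_X_sub_C] at hd
    omega
  have hθ : Transcendental ℚ (Complex.exp (β * L)) :=
    FA.GelfondSchneider.transcendental_exp_mul hL hβ.isAlgebraic hirr hα
  by_contra hall
  set θ := Complex.exp (β * L) with hθdef
  have hlow : ∀ k < d, IsIntegral ℚ⟮θ⟯ (Complex.exp (β ^ k * L)) := fun k hk => by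
    obtain rfl | rfl | hk2 : k = 0 ∨ k = 1 ∨ 2 ≤ k := by omega
    · simpa using hα.isIntegral.tower_top
    · simpa [← hθdef] using isIntegral_self θ
    · refine IsAlgebraic.isIntegral ?_
      by_contra hk'
      exact hall ⟨k, hk2, hk, algebraicIndependent_pair hθ hk'⟩
  obtain ⟨r, hr⟩ := Nat.exists_eq_succ_of_ne_zero (show d ≠ 0 by omega)
  have hx : LinearIndependent ℚ fun i : Fin (r + 1) => β ^ (i : ℕ) :=
    (linearIndependent_pow (K := ℚ) β).comp (Fin.cast (by omega)) (Fin.cast_injective _)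
  have hy : LinearIndependent ℚ fun j : Fin (r + 1) => β ^ (j : ℕ) * L :=
    hx.map' (LinearMap.mulRight ℚ L)
      (LinearMap.ker_eq_bot.2 (mul_left_injective₀ hL))
  refine false_of_schemes hθ hx hy (fun i j => ?_)
    (fun ν c _ => schemeTwo r (r + 1) ν c (by omega)
      (by calc r + 1 + 2 * (r + 1) = 3 * (r + 1) := by ring
            _ ≤ _ := Nat.mul_le_mul_right _ (by omega)))
    (Or.inr fun i => (hβ.tower_top).pow _) (Or.inl fun _ _ _ _ => le_rfl)
  rw [← mul_assoc, ← pow_add]
  exact isIntegral_exp_pow_mul hβ hlow _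

theorem linearIndependent_powers (t : ℂ) (ht : Transcendental ℚ t) :
    LinearIndependent ℚ fun i : ℕ => t ^ i := by
  have h := (Polynomial.basisMonomials ℚ).linearIndependent.map' (aeval t).toLinearMap
    (LinearMap.ker_eq_bot.2 (transcendental_iff_injective.1 ht))
  simpa [Function.comp_def] using h

theorem linearIndependent_pow_of_transcendental {t : ℂ} (ht : Transcendental ℚ t) (n : ℕ) :
    LinearIndependent ℚ fun i : Fin n => t ^ (i : ℕ) :=
  (linearIndependent_powers t ht).comp _ Fin.val_injective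

end FA.SmallTrdeg

end
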