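import Fermat.Agent.SmallTrdeg.Construction
import Fermat.Agent.GelfondCubic.SmallPolynomial

/-!
# The small polynomial

A `Scheme` records what the parameters must satisfy.
-/

set_option autoImplicit false

noncomputable section

open Finset Polynomial Filter

namespace FA.SmallTrdeg

open FA.GelfondCubic (Small len mul_le_exp pow_le_exp nat_succ_le_exp cast_le_exp nat_le_exp_log
  inv_two_pow_le combine_le exists_norm_poly_basis small_sum norm_aeval_le one_le_len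
  aeval_ne_zero)

/-- The parameters, for a degree `ν` and a constant `c`. -/
structure Scheme (l m ν c : ℕ) where
  /-- the powers of `z` -/
  A : ℕ → ℕ
  /-- the frequencies -/
  L : ℕ → ℕ
  /-- the points of the zeros -/
  S : ℕ → ℕ
  /-- the points of the nonzero value -/
  S' : ℕ → ℕ
  /-- the order of the zeros -/
  T : ℕ → ℕ
  /-- the order of the nonzero value -/
  T' : ℕ → ℕ
  /-- the unit of the degrees -/
  V : ℕ → ℝ
  /-- the unit of the heights -/
  U : ℕ → ℝ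
  /-- the exponent of the largest parameter -/
  e : ℕ
  /-- the bound for the growth of the units -/
  a : ℝ
  /-- the parameters are positive and ordered -/
  pos : ∀ᶠ N in atTop,
    1 ≤ A N ∧ 1 ≤ L N ∧ 1 ≤ S N ∧ 1 ≤ T N ∧ S N ≤ S' N ∧ T N ≤ T' N
  /-- Siegel's lemma applies -/
  count : ∀ᶠ N in atTop, 4 * ν * T N * S N ^ m ≤ A N * L N ^ l
  /-- the zero estimate applies -/
  zeros : ∀ᶠ N in atTop, c * (A N * L N ^ l + S' N * L N) ≤ T' N * S' N ^ m
  /-- the parameters are at most powers of `N` -/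
  size : ∀ᶠ N in atTop, A N ≤ N ^ e ∧ L N ≤ N ^ e ∧ S' N ≤ N ^ e ∧ T' N ≤ N ^ e
  /-- the degrees -/
  deg : ∀ᶠ N in atTop, ((A N + T' N + L N * S' N : ℕ) : ℝ) ≤ V N
  /-- the heights -/
  ht : ∀ᶠ N in atTop, ((A N + T' N : ℕ) : ℝ) * ((Nat.log 2 N : ℝ) + 1) +
    ((L N * S' N : ℕ) : ℝ) ≤ U N
  /-- the units grow regularly -/
  units : ∀ᶠ N in atTop, 1 ≤ V N ∧ V N ≤ U N ∧ V N ≤ a * V (N + 1) ∧ U N ≤ a * U (N + 1) ∧
    V (N + 1) ≤ a * V N ∧ U (N + 1) ≤ a * U N
  /-- the growth rate is not negative -/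
  a_nonneg : 0 ≤ a
  /-- the heights tend to infinity -/
  tendsto : Tendsto U atTop atTop
  /-- the gain dominates -/
  main : ∀ C : ℝ, ∀ᶠ N in atTop,
    C * (V N * U N + ((L N * S' N * N : ℕ) : ℝ)) ≤ ((T N * S N ^ m : ℕ) : ℝ) * Nat.log 2 N

variable {l m : ℕ} {θ : ℂ} {x x' : Fin l → ℂ} {y y' : Fin m → ℂ} (D : Data θ x x' y y')

/-- The constant of the zero estimate. -/
def zeroConst (x : Fin l → ℂ) (y : Fin m → ℂ) : ℕ := ⌈18 * linSize x * linSize y + 4⌉₊

/-- **The small polynomial.** -/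
theorem exists_small_polynomial (hθ : Transcendental ℚ θ) (hx : LinearIndependent ℚ x)
    (hy : LinearIndependent ℚ y) (σ : Scheme l m D.ν (zeroConst x y))
    (hx' : (∀ N, σ.T' N ≤ 1) ∨ x' = x) (hy' : (∀ N, σ.A N ≤ 1) ∨ y' = y) :
    ∃ cD cT cU c4 : ℝ, 1 ≤ cD ∧ cD ≤ cT ∧ 0 ≤ cU ∧ 0 ≤ c4 ∧ ∀ᶠ N in atTop, ∃ P : ℤ[X], P ≠ 0 ∧
      (P.natDegree : ℝ) ≤ cD * σ.V N ∧ P.natDegree + Real.log (len P) ≤ cT * σ.U N ∧
      ‖aeval θ P‖ ≤ Real.exp (cU * σ.U N + c4 * ((σ.L N * σ.S' N * N : ℕ) : ℝ) -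
        ((σ.T N * σ.S N ^ m : ℕ) : ℝ) * Nat.log 2 N / 2) := by
  classical
  obtain ⟨d₀, K, hK, hval⟩ := exists_small_valueMat D
  set ν : ℝ := (D.ν : ℝ) with hν
  have hν1 : 1 ≤ ν := by rw [hν]; exact_mod_cast D.hν
  set Θ := max 1 ‖θ‖ with hΘ
  have hΘ1 : 1 ≤ Θ := le_max_left _ _
  set e : ℝ := (σ.e : ℝ) with he
  set lm : ℝ := ((l * m + 1 : ℕ) : ℝ) with hlm
  set cδ : ℝ := d₀ * lm with hcδ
  have hcδ0 : 0 ≤ cδ := by positivity
  set cn : ℝ := e * (l + 1) with hcn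
  set cB : ℝ := K * (lm + 1) + 2 * e with hcB
  set cp : ℝ := cδ + (cn + cδ + cB) with hcp
  set cG : ℝ := cn + (cp + cB) with hcG
  set cY : ℝ := ν + 1 + (cG + Θ * (2 * cδ)) with hcY
  set cR : ℝ := e + 1 + 3 * (linSize y + 1) with hcR
  set cM : ℝ := cn + (cp + Θ * cδ + cR) with hcM
  set cS : ℝ := ∑ i, ∑ j, ‖D.w j‖ / ‖D.w i‖ with hcS
  have hcS0 : 0 ≤ cS := sum_nonneg fun _ _ => sum_nonneg fun _ _ => by positivity
  have hys := one_le_linSize y
  refine ⟨2 * ν * cδ + 1, 2 * ν * cδ + 1 + ν * (ν + cG),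
    ‖aeval θ D.q‖ * lm + (e + cM) + (cS + ν * cY), linSize x * (3 * (linSize y + 1)),
    le_add_of_nonneg_left (by positivity), le_add_of_nonneg_right (by positivity), by positivity,
    mul_nonneg (zero_le_one.trans (one_le_linSize x)) (by positivity), ?_⟩
  filter_upwards [σ.pos, σ.count, σ.zeros, σ.size, σ.deg, σ.ht, σ.units,
    eventually_ge_atTop 1] with N hpos hcount hzeros hsize hdeg hht hunits hN
  obtain ⟨hA1, hL1, hS1, hT1, hSS, hTT⟩ := hpos
  obtain ⟨hAe, hLe, hSe, hTe⟩ := hsize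
  obtain ⟨hV1, hVU, -⟩ := hunits
  have hN1 : (1 : ℝ) ≤ N := by exact_mod_cast hN
  set A := σ.A N with hA
  set L := σ.L N with hL
  set S' := σ.S' N with hS'
  set T' := σ.T' N with hT'
  set V := σ.V N with hV
  set U := σ.U N with hU
  set ℓ : ℝ := (Nat.log 2 N : ℝ) with hℓ
  have hU1 : 1 ≤ U := hV1.trans hVU
  have hℓ0 : 0 ≤ ℓ := Nat.cast_nonneg _
  have hLS : (0 : ℝ) ≤ ((L * S' : ℕ) : ℝ) := Nat.cast_nonneg _
  have hatl : ((A + T' : ℕ) : ℝ) * (ℓ + 1) ≤ U := by linarith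
  have hℓU : ℓ + 1 ≤ U := le_trans
    (le_mul_of_one_le_left (by linarith) (by exact_mod_cast (by omega : 1 ≤ A + T'))) hatl
  -- powers of `N`
  have hNpow : ∀ {j : ℕ} {r : ℝ}, 0 ≤ r → (j : ℝ) * (ℓ + 1) ≤ r * U →
      ((N : ℝ) ^ σ.e) ^ j ≤ Real.exp (e * r * U) := fun {j r} _ hj => by
    rw [← pow_mul]
    refine (pow_le_pow_left₀ (Nat.cast_nonneg _) (nat_le_exp_log N) _).trans ?_
    rw [← Real.exp_nat_mul, Real.exp_le_exp, Nat.cast_mul, ← he, mul_assoc, mul_assoc]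
    exact mul_le_mul_of_nonneg_left hj (Nat.cast_nonneg _)
  have hATU : ∀ j : ℕ, j ≤ A + T' → (j : ℝ) * (ℓ + 1) ≤ 1 * U := fun j hj => by
    rw [one_mul]
    exact (mul_le_mul_of_nonneg_right (Nat.cast_le.2 hj) (by linarith)).trans hatl
  have hEV : ∀ t ≤ T', ((A + t + l * m * (L * S') : ℕ) : ℝ) ≤ lm * V := fun t ht => by
    refine le_trans ?_ (mul_le_mul_of_nonneg_left hdeg (by positivity : 0 ≤ lm))
    rw [hlm, ← Nat.cast_mul, Nat.cast_le, add_one_mul (l * m), mul_add (l * m) (A + T')]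
    omega
  have hEU : ∀ t ≤ T', ((A + t + l * m * (L * S') : ℕ) : ℝ) ≤ lm * U := fun t ht =>
    (hEV t ht).trans (mul_le_mul_of_nonneg_left hVU (by positivity))
  set δ := d₀ * (A + T' + l * m * (L * S')) with hδ
  have hδV : (δ : ℝ) ≤ cδ * V := by
    rw [hδ, hcδ, Nat.cast_mul]
    exact (mul_le_mul_of_nonneg_left (hEV T' le_rfl) (Nat.cast_nonneg _)).trans_eq
      (mul_assoc _ _ _).symm
  have hδU : (δ : ℝ) ≤ cδ * U := hδV.trans (mul_le_mul_of_nonneg_left hVU hcδ0)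
  have h2δ : ((δ + δ : ℕ) : ℝ) ≤ 2 * cδ * U := by push_cast; linarith
  have hn : ((L ^ l * A : ℕ) : ℝ) ≤ Real.exp (cn * U) := by
    have h1 : L ^ l * A ≤ (N ^ σ.e) ^ (l + 1) := by
      rw [pow_succ (N ^ σ.e) l]
      exact Nat.mul_le_mul (Nat.pow_le_pow_left hLe l) hAe
    refine (Nat.cast_le.2 h1).trans ?_
    push_cast
    refine hNpow (by positivity) ?_
    push_cast
    exact mul_le_mul_of_nonneg_left hℓU (by positivity)
  -- the matrices
  set E := A + T' + l * m * (L * S') with hE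
  set B := K ^ (E + 1) * ((N ^ σ.e : ℕ) : ℝ) ^ (A + 2 * T') with hB
  have hH1 : 1 ≤ N ^ σ.e := Nat.one_le_pow _ _ hN
  have hH1' : (1 : ℝ) ≤ ((N ^ σ.e : ℕ) : ℝ) := by exact_mod_cast hH1
  have hB1 : 1 ≤ B := one_le_mul_of_one_le_of_one_le (one_le_pow₀ hK) (one_le_pow₀ hH1')
  have hBU : B ≤ Real.exp (cB * U) := by
    refine mul_le_exp (by positivity) (pow_le_exp (by linarith) (e := lm + 1) ?_) ?_
    · push_cast
      have := hEU T' le_rfl
      push_cast [hE] at this ⊢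
      linarith
    · rw [Nat.cast_pow, show (2 : ℝ) * e = e * 2 by ring]
      refine hNpow zero_le_two ?_
      have h1 := hATU (A + T') le_rfl
      have h2 : (0 : ℝ) ≤ (A : ℝ) * (ℓ + 1) := mul_nonneg (Nat.cast_nonneg _) (by linarith)
      push_cast at h1 ⊢
      linarith
  have hsmall : ∀ {S : ℕ}, S ≤ S' → ∀ t ≤ T', ∀ (a : FunIndex l L A) (τ : Fin m → Fin S),
      Small (valueMat D t a τ) δ B := fun {S} hS t ht a τ => by
    have hmul : l * m * (L * S) ≤ l * m * (L * S') :=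
      Nat.mul_le_mul_left _ (Nat.mul_le_mul_left _ hS)
    exact (hval (N ^ σ.e) t a τ hH1 hAe hLe (hS.trans hSe)).mono
      (Nat.mul_le_mul_left _ (by omega)) (mul_le_mul (pow_le_pow_right₀ hK (by omega))
        (pow_le_pow_right₀ hH1' (by omega)) (by positivity) (by positivity))
  obtain ⟨p, hp0, hpd, hpl, hzero⟩ := exists_aux D hθ hL1 hA1 hS1 hT1
    (hx'.imp (fun h => hTT.trans (h N)) id) (hy'.imp (fun h => h N) id) hcount hB1
    fun t ht a τ => hsmall hSS t (ht.le.trans hTT) a τ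
  set Lp := ((δ + 1 : ℕ) : ℝ) * ((L ^ l * A * (δ + 1) : ℕ) * B) with hLp
  have hLp0 : 0 ≤ Lp := by positivity
  have hLpU : Lp ≤ Real.exp (cp * U) := by
    refine mul_le_exp (by positivity) (nat_succ_le_exp hδU) (mul_le_exp (by linarith) ?_ hBU)
    rw [Nat.cast_mul]
    exact mul_le_exp (Nat.cast_nonneg _) hn (nat_succ_le_exp hδU)
  -- the nonzero value
  obtain ⟨t, ht, τ, hne⟩ := exists_value_ne_zero hθ hx hy (Nat.le_ceil _) hL1 hA1
    (hS1.trans hSS) hzeros hp0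
  set BG := ((L ^ l * A : ℕ) : ℝ) * (Lp * B) with hBG
  have hG : Small (sumMat D p t τ) (δ + δ) BG := by
    refine (small_sum _ _ fun a _ => (hsmall le_rfl t ht.le a τ).smul (p a) (hpd a) (hpl a)).mono
      le_rfl (le_of_eq ?_)
    rw [sum_const, card_univ, Fintype.card_eq_nat_card, Nat.card_prod, Nat.card_fun, Nat.card_fin,
      Nat.card_fin, Nat.card_fin, nsmul_eq_mul]
  have hBGU : BG ≤ Real.exp (cG * U) :=
    mul_le_exp (by positivity) hn (mul_le_exp (by linarith) hLpU hBU)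
  have hγ : aeval θ D.q ^ qExp l m A L S' t * valueSum θ x y p t τ ≠ 0 :=
    mul_ne_zero (pow_ne_zero _ (aeval_ne_zero hθ D.hq)) hne
  obtain ⟨hdet, hdegdet, hlen, hval'⟩ := exists_norm_poly_basis D.hν D.w D.hw D.indep hG
    (acts_sumMat D p (hx'.imp (fun h => by have := h N; omega) id)
      (hy'.imp (fun h => h N) id) τ) hγ
  have hdegV : ((sumMat D p t τ).det.natDegree : ℝ) ≤ (2 * ν * cδ + 1) * V := by
    refine (Nat.cast_le.2 hdegdet).trans ?_
    push_cast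
    rw [← hν]
    linarith [mul_le_mul_of_nonneg_left hδV (show (0 : ℝ) ≤ ν by linarith)]
  refine ⟨_, hdet, hdegV, ?_, ?_⟩
  · have h1 : Real.log (len (sumMat D p t τ).det) ≤ ν * (ν + cG) * U := by
      rw [Real.log_le_iff_le_exp (zero_lt_one.trans_le (one_le_len hdet))]
      refine hlen.trans ?_
      calc (ν * BG) ^ D.ν ≤ Real.exp ((ν + cG) * U) ^ D.ν :=
            pow_le_pow_left₀ (by positivity)
              (mul_le_exp (by positivity) (cast_le_exp hU1 (by linarith)) hBGU) _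
        _ = _ := by rw [← Real.exp_nat_mul, ← hν, mul_assoc]
    have h2 := mul_le_mul_of_nonneg_left hVU (show (0 : ℝ) ≤ 2 * ν * cδ + 1 by positivity)
    linarith
  -- its value
  have hPb : ∀ a, ‖aeval θ (p a)‖ ≤ Lp * Θ ^ δ := fun a => (norm_aeval_le θ _ (hpd a)).trans
    (mul_le_mul_of_nonneg_right (hpl a) (by positivity))
  have hγ' := norm_valueSum_le hy hN hSS hPb hzero t τ
  set R := (linSize y * S' + 1) * (3 * (N : ℝ)) with hR
  have hSN : (1 : ℝ) ≤ S' := by exact_mod_cast hS1.trans hSS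
  have hR2 : R ≤ 3 * (linSize y + 1) * ((S' * N : ℕ) : ℝ) := by
    rw [hR]
    push_cast
    linarith [mul_le_mul_of_nonneg_right hSN (show (0 : ℝ) ≤ 3 * (N : ℝ) by positivity)]
  set X4 := Real.exp (linSize x * (3 * (linSize y + 1)) * ((L * S' * N : ℕ) : ℝ)) with hX4
  set Z := Real.exp (-(((σ.T N * σ.S N ^ m : ℕ) : ℝ) * ℓ / 2)) with hZ
  have hRA : R ^ A ≤ Real.exp (cR * U) := by
    have hc3 : 0 ≤ 3 * (linSize y + 1) := by positivity
    have hAU : (A : ℝ) ≤ 1 * U := by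
      refine le_trans ?_ (hATU A (by omega))
      exact le_mul_of_one_le_right (Nat.cast_nonneg _) (by linarith)
    have hSNe : ((S' * N : ℕ) : ℝ) ≤ (N : ℝ) ^ σ.e * N := by
      push_cast
      exact mul_le_mul_of_nonneg_right (by exact_mod_cast hSe) (Nat.cast_nonneg _)
    calc R ^ A ≤ ((N : ℝ) ^ σ.e * N * (3 * (linSize y + 1))) ^ A := by
          refine pow_le_pow_left₀ (by positivity) (hR2.trans ?_) A
          rw [mul_comm]
          exact mul_le_mul_of_nonneg_right hSNe hc3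
      _ = ((N : ℝ) ^ σ.e) ^ A * (N : ℝ) ^ A * (3 * (linSize y + 1)) ^ A := by
          rw [mul_pow, mul_pow]
      _ ≤ Real.exp ((e * 1 + 1) * U) * Real.exp (3 * (linSize y + 1) * 1 * U) := by
          refine mul_le_mul (mul_le_exp (by positivity) (hNpow zero_le_one (hATU A (by omega))) ?_)
            (pow_le_exp hc3 hAU) (by positivity) (Real.exp_pos _).le
          refine (pow_le_pow_left₀ (Nat.cast_nonneg _) (nat_le_exp_log N) A).trans ?_
          rw [← Real.exp_nat_mul, Real.exp_le_exp]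
          exact hATU A (by omega)
      _ = _ := by rw [← Real.exp_add, hcR]; ring_nf
  have hM' : ((L ^ l * A : ℕ) : ℝ) * (Lp * Θ ^ δ * R ^ A * Real.exp (linSize x * L * R)) ≤
      Real.exp (cM * U) * X4 := by
    rw [← mul_assoc]
    refine mul_le_mul (mul_le_exp (by positivity) hn (mul_le_exp (by positivity)
      (mul_le_exp (by positivity) hLpU (pow_le_exp (by linarith) hδU)) hRA))
      (Real.exp_le_exp.2 ?_) (Real.exp_pos _).le (Real.exp_pos _).le
    have hLR := mul_le_mul_of_nonneg_left hR2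
      (mul_nonneg (zero_le_one.trans (one_le_linSize x)) (Nat.cast_nonneg L))
    push_cast at hLR ⊢
    linarith
  have hdecay : ((2 : ℝ) ^ Nat.log 2 N)⁻¹ ^ (σ.T N * σ.S N ^ m) ≤ Z := by
    rw [inv_pow, ← pow_mul]
    refine (inv_two_pow_le _).trans (Real.exp_le_exp.2 (le_of_eq ?_))
    rw [hℓ]
    push_cast
    ring
  have hfac : (t.factorial : ℝ) ≤ Real.exp (e * U) := by
    refine (Nat.cast_le.2 (Nat.factorial_le_pow t)).trans ?_
    push_cast
    refine (pow_le_pow_left₀ (Nat.cast_nonneg _) (show (t : ℝ) ≤ (N : ℝ) ^ σ.e by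
      exact_mod_cast ht.le.trans hTe) t).trans ?_
    simpa using hNpow zero_le_one (hATU t (by omega))
  have hgam : ‖valueSum θ x y p t τ‖ ≤ Real.exp ((e + cM) * U) * (X4 * Z) := by
    refine hγ'.trans ?_
    calc _ ≤ Real.exp (e * U) * (Real.exp (cM * U) * X4 * Z) :=
          mul_le_mul hfac (mul_le_mul hM' hdecay (by positivity) (by positivity))
            (by positivity) (Real.exp_pos _).le
      _ = _ := by
          rw [add_mul e cM U, Real.exp_add (e * U) (cM * U)]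
          ring
  have hY : ν * (BG * Θ ^ (δ + δ)) + 1 ≤ Real.exp (cY * U) := by
    have hz : BG * Θ ^ (δ + δ) ≤ Real.exp ((cG + Θ * (2 * cδ)) * U) :=
      mul_le_exp (by positivity) hBGU (pow_le_exp (by linarith) h2δ)
    have h1 : (1 : ℝ) ≤ Real.exp ((cG + Θ * (2 * cδ)) * U) := Real.one_le_exp (by positivity)
    calc ν * (BG * Θ ^ (δ + δ)) + 1 ≤ (ν + 1) * Real.exp ((cG + Θ * (2 * cδ)) * U) := by
          rw [add_mul, one_mul]
          exact add_le_add (mul_le_mul_of_nonneg_left hz (by linarith)) h1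
      _ ≤ _ := mul_le_exp (Real.exp_pos _).le (cast_le_exp hU1 (by linarith)) le_rfl
  have hq' : ‖aeval θ D.q‖ ^ qExp l m A L S' t ≤ Real.exp (‖aeval θ D.q‖ * lm * U) :=
    pow_le_exp (norm_nonneg _) (hEU t ht.le)
  refine hval'.trans ?_
  rw [norm_mul, norm_pow]
  refine (combine_le (norm_nonneg _) hcS0 (by positivity) hq' hgam (cast_le_exp hU1 hcS0)
    hY).trans_eq ?_
  rw [← hν]
  congr 1

end FA.SmallTrdeg

end
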